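import Fermat.Agent.Corollaries.Mahl.Wron

/-!
# The main inequality at several places
-/

open Polynomial Finset

namespace Fermat.Agent.Cor.Mahl

open Fermat.Agent.Cor.Thue

/-- A field with an absolute value. -/
structure Pl where
  /-- the field -/
  K : Type
  /-- its norm -/
  nf : NormedField K
  /-- characteristic zero -/
  cz : CharZero K

attribute [instance] Pl.nf Pl.cz

/-- The choice of the parameter. -/
theorem exists_param' {d μ : ℝ} (hμ : d / 2 + 1 < μ) :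
    ∃ s : ℕ, 3 ≤ s ∧ (s : ℝ) * (s + 1) * d + 2 * s ^ 2 + 2 ≤ μ * (2 * s ^ 2 - 1) := by
  have hδ : 0 < 2 * μ - d - 2 := by linarith
  obtain ⟨s, hs⟩ := exists_nat_ge ((|d + μ + 2|) / (2 * μ - d - 2))
  refine ⟨s + 3, by omega, ?_⟩
  rw [div_le_iff₀ hδ] at hs
  have hs0 : (0 : ℝ) ≤ s := Nat.cast_nonneg s
  push_cast
  set t : ℝ := (s : ℝ) + 3 with ht
  have ht1 : 1 ≤ t := by linarith
  have habs := le_abs_self (d + μ + 2)
  have h1 : d + μ + 2 ≤ t * (2 * μ - d - 2) := by nlinarith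
  have h2 : (d + μ + 2) * t ≤ t * (2 * μ - d - 2) * t := mul_le_mul_of_nonneg_right h1 (by linarith)
  have h3 : |d + μ + 2| ≤ t * (2 * μ - d - 2) := by nlinarith
  have h4 : μ + 2 ≤ t * (μ + 2) ∨ μ + 2 < 0 := by
    rcases le_or_gt 0 (μ + 2) with h | h
    · left; nlinarith
    · right; exact h
  rcases h4 with h4 | h4
  · nlinarith
  · have h5 : 0 ≤ t * (2 * μ - d - 2) := by positivity
    nlinarith [abs_nonneg (d + μ + 2)]

/-- The size of a pair. -/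
def hh (P : ℤ × ℤ) : ℕ := max P.1.natAbs P.2.natAbs

theorem cast_hh (P : ℤ × ℤ) : ((hh P : ℕ) : ℝ) = max |(P.1 : ℝ)| |(P.2 : ℝ)| := by
  have h1 : ∀ m : ℤ, ((m.natAbs : ℕ) : ℝ) = |(m : ℝ)| := by
    intro m
    rw [Nat.cast_natAbs, Int.cast_abs]
  rw [hh, Nat.cast_max, h1, h1]

theorem finite_hh_le (N : ℕ) : {P : ℤ × ℤ | hh P ≤ N}.Finite := by
  refine ((Set.finite_Icc (-(N : ℤ)) N).prod (Set.finite_Icc (-(N : ℤ)) N)).subset ?_
  rintro ⟨x, y⟩ hxy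
  have h : hh (x, y) ≤ N := hxy
  rw [hh, max_le_iff] at h
  simp only at h
  constructor
  · constructor <;> simp only <;> omega
  · constructor <;> simp only <;> omega

theorem exists_hh_gt {A : Set (ℤ × ℤ)} (hA : A.Infinite) (N : ℕ) : ∃ P ∈ A, N < hh P := by
  by_contra hcon
  push Not at hcon
  exact hA ((finite_hh_le N).subset fun P hP => hcon P hP)

set_option maxHeartbeats 2000000 in
/-- **The core.** -/
theorem core {f : ℤ[X]} (hf : f.Monic) (hsep : (f.map (Int.castRingHom ℚ)).Separable)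
    (hdeg : 3 ≤ f.natDegree) {V : Type} [Fintype V] (pl : V → Pl) (α : ∀ v, (pl v).K)
    (hα : ∀ v, aeval (α v) f = 0)
    (h1 : ∀ N : ℤ, N ≠ 0 → 1 ≤ ∏ v, ‖(N : (pl v).K)‖)
    (h2 : ∀ P : ℤ × ℤ, ∏ v, max ‖(P.1 : (pl v).K)‖ ‖(P.2 : (pl v).K)‖ ≤ hh P)
    (w : V → ℝ) (hw : ∀ v, 0 ≤ w v) {μ : ℝ} (hμ : (f.natDegree : ℝ) / 2 + 1 < μ)
    (hsum : μ ≤ ∑ v, w v) {C₀ : ℝ} (hC₀ : 1 ≤ C₀) :
    {P : ℤ × ℤ | IsCoprime P.1 P.2 ∧ P.2 ≠ 0 ∧
      ∀ v, ‖(P.1 : (pl v).K) - α v * P.2‖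
        ≤ C₀ * (hh P : ℝ) ^ (-(w v)) * max ‖(P.1 : (pl v).K)‖ ‖(P.2 : (pl v).K)‖}.Finite := by
  classical
  by_contra hinf
  set A : Set (ℤ × ℤ) := {P : ℤ × ℤ | IsCoprime P.1 P.2 ∧ P.2 ≠ 0 ∧
      ∀ v, ‖(P.1 : (pl v).K) - α v * P.2‖
        ≤ C₀ * (hh P : ℝ) ^ (-(w v)) * max ‖(P.1 : (pl v).K)‖ ‖(P.2 : (pl v).K)‖} with hAdef
  have hμ1 : 1 ≤ μ := by
    have : (0 : ℝ) ≤ (f.natDegree : ℝ) := Nat.cast_nonneg _
    linarith
  obtain ⟨e, he⟩ : ∃ e, f.natDegree = e + 1 := ⟨f.natDegree - 1, by omega⟩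
  obtain ⟨s, hs, hsμ⟩ := exists_param' hμ
  -- bound for the coefficients
  obtain ⟨H, hH⟩ : ∃ H : ℤ, ∀ i, |f.coeff i| ≤ H := by
    refine ⟨∑ i ∈ range (f.natDegree + 1), |f.coeff i|, fun i => ?_⟩
    by_cases hi : i ∈ range (f.natDegree + 1)
    · exact single_le_sum (f := fun i => |f.coeff i|) (fun j _ => abs_nonneg _) hi
    · rw [mem_range, not_lt] at hi
      rw [coeff_eq_zero_of_natDegree_lt (by omega), abs_zero]
      exact sum_nonneg fun j _ => abs_nonneg _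
  have hH0 : 0 ≤ H := (abs_nonneg _).trans (hH 0)
  have hH0' : (0 : ℝ) ≤ H := by exact_mod_cast hH0
  -- constants
  set Y : ℝ := 1 + ∑ v, ‖α v‖ with hY
  have hYv : ∀ v, 1 + ‖α v‖ ≤ Y := by
    intro v
    have := single_le_sum (f := fun v => ‖α v‖) (fun v _ => norm_nonneg _) (mem_univ v)
    rw [hY]
    linarith
  have hY1 : 1 ≤ Y := by
    have : 0 ≤ ∑ v, ‖α v‖ := sum_nonneg fun v _ => norm_nonneg _
    rw [hY]; linarith
  set E : ℕ := s * (s + 1) * (e + 1) with hE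
  set S : ℕ := 2 * s ^ 2 with hS
  set K₁ : ℝ := (4 * (1 + (H : ℝ))) ^ (E * s) with hK₁
  set D : ℝ := (16 * Y ^ 2 * C₀) ^ E * K₁ * (2 * C₀ ^ S) with hD
  set K₂ : ℝ := D ^ (Fintype.card V) with hK₂
  set K₃ : ℝ := 4 ^ E * K₁ ^ 2 with hK₃
  have hK₁0 : 0 < K₁ := by positivity
  have hD0 : 0 < D := by positivity
  have hK₂0 : 0 < K₂ := by positivity
  have hK₃0 : 0 < K₃ := by positivity
  -- the first solution
  obtain ⟨N₁, hN₁⟩ := exists_nat_ge (max 2 (max K₂ K₃))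
  obtain ⟨P₁, hP₁A, hP₁⟩ := exists_hh_gt hinf N₁
  set L : ℝ := ((hh P₁ : ℕ) : ℝ) with hL
  have hNL : (N₁ : ℝ) < L := by
    rw [hL]
    exact_mod_cast hP₁
  have hL2 : 2 ≤ L := (le_max_left _ _).trans (hN₁.trans hNL.le)
  have hL1 : 1 ≤ L := by linarith
  have hL0 : 0 < L := by linarith
  have hLK₂ : K₂ ≤ L := (le_max_left _ _).trans ((le_max_right _ _).trans (hN₁.trans hNL.le))
  have hLK₃ : K₃ < L :=
    lt_of_le_of_lt ((le_max_right _ _).trans ((le_max_right _ _).trans hN₁)) hNL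
  -- the second solution
  have hS2 : 2 ≤ S := by
    rw [hS]
    have : 1 ≤ s ^ 2 := Nat.one_le_pow _ _ (by omega)
    omega
  set b : ℕ := hh P₁ ^ S with hb
  have hh2 : 2 ≤ hh P₁ := by
    have : (2 : ℝ) ≤ ((hh P₁ : ℕ) : ℝ) := hL2
    exact_mod_cast this
  have hb1 : 1 < b := Nat.one_lt_pow (by omega) (by omega)
  obtain ⟨P₂, hP₂A, hP₂⟩ := exists_hh_gt hinf (b ^ (S + 1))
  set u : ℕ := Nat.log b (hh P₂) with hu
  have hSu : S + 1 ≤ u := Nat.le_log_of_pow_le hb1 hP₂.le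
  have hP₂0 : hh P₂ ≠ 0 := by
    have := Nat.zero_le (b ^ (S + 1))
    omega
  have hbu : b ^ u ≤ hh P₂ := Nat.pow_log_le_self b hP₂0
  have hbu' : hh P₂ < b ^ (u + 1) := Nat.lt_pow_succ_log_self hb1 _
  have hu0 : 0 < u := by omega
  have hq : L ^ (S * u) ≤ (hh P₂ : ℝ) := by
    have h1 : ((b ^ u : ℕ) : ℝ) ≤ (hh P₂ : ℝ) := Nat.cast_le.mpr hbu
    rw [hb] at h1
    push_cast at h1
    rwa [pow_mul]
  have hq' : (hh P₂ : ℝ) < L ^ (S * (u + 1)) := by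
    have h1 : (hh P₂ : ℝ) < ((b ^ (u + 1) : ℕ) : ℝ) := Nat.cast_lt.mpr hbu'
    rw [hb] at h1
    push_cast at h1
    rwa [pow_mul]
  have hq0 : 0 < (hh P₂ : ℝ) := lt_of_lt_of_le (by positivity) hq
  -- the auxiliary polynomials
  obtain ⟨P, Q, h0, hP, hQ, hBP, hBQ, hv⟩ := exists_small' (n := E * u) (h := S * u) (s := s)
    hf he hH (by positivity) (by rw [hE, hS]; ring)
  have hB : ((4 * (1 + (H : ℝ))) ^ (E * u * s) : ℝ) = K₁ ^ u := by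
    rw [hK₁, ← pow_mul]
    congr 1
    ring
  rw [hB] at hBP hBQ
  have hW : wronskian P Q ≠ 0 := by
    refine wronskian_ne_zero' hsep h0 hP hQ ?_ (fun β hβ => hv ℂ β hβ)
    rw [he, hE, hS, Nat.add_sub_cancel]
    have h5 : s * (s + 1) * (e + 1) ≤ e * (2 * s ^ 2) := by
      have he2 : 2 ≤ e := by omega
      obtain ⟨s', rfl⟩ : ∃ s', s = s' + 3 := ⟨s - 3, by omega⟩
      obtain ⟨e', rfl⟩ : ∃ e', e = e' + 2 := ⟨e - 2, by omega⟩
      nlinarith [Nat.zero_le (s' * e'), Nat.zero_le (s' ^ 2 * e'), Nat.zero_le (s' ^ 2)]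
    calc s * (s + 1) * (e + 1) * u ≤ e * (2 * s ^ 2) * u := Nat.mul_le_mul_right _ h5
      _ = e * (2 * s ^ 2 * u) := by ring
  have hlc : ∀ i, |((wronskian P Q).coeff i : ℝ)| < L ^ u := by
    intro i
    have h1 := abs_wronskian_le hP hQ (by positivity) hBP hBQ i
    have h2 : (4 : ℝ) ^ (E * u) * (K₁ ^ u) ^ 2 = K₃ ^ u := by
      rw [hK₃, mul_pow (4 ^ E), pow_mul 4 E u, ← pow_mul K₁ u 2, ← pow_mul K₁ 2 u, mul_comm u 2]
    rw [h2] at h1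
    exact h1.trans_lt (pow_lt_pow_left₀ hLK₃ hK₃0.le (by omega))
  obtain ⟨hcop₁, hy₁, hap₁⟩ := hP₁A
  obtain ⟨hcop₂, hy₂, hap₂⟩ := hP₂A
  set t₂ : ℚ := (P₂.1 : ℚ) / P₂.2 with ht₂
  obtain ⟨k, hku, hk⟩ := exists_ne_zero' hW hcop₁ hy₁ t₂ u (cast_hh P₁) hlc
  -- the integer
  have hform : ∀ U : ℤ[X], U.natDegree < E * u → ∃ z : ℤ,
      (z : ℚ) = (P₁.2 : ℚ) ^ (E * u) * aeval ((P₁.1 : ℚ) / P₁.2) U := by
    intro U hU
    have hy' : (P₁.2 : ℚ) ≠ 0 := by exact_mod_cast hy₁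
    refine ⟨∑ i ∈ range (E * u), U.coeff i * P₁.1 ^ i * P₁.2 ^ (E * u - i), ?_⟩
    rw [aeval_eq_sum_range' hU, mul_sum]
    push_cast
    refine sum_congr rfl fun i hi => ?_
    rw [mem_range] at hi
    have h1 : (P₁.2 : ℚ) ^ (E * u) = (P₁.2 : ℚ) ^ (E * u - i) * (P₁.2 : ℚ) ^ i := by
      rw [← pow_add]
      congr 1
      omega
    rw [h1, zsmul_eq_mul, div_pow]
    field_simp
  obtain ⟨z₁, hz₁⟩ := hform _ (natDegree_hasseDeriv_lt hP k)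
  obtain ⟨z₂, hz₂⟩ := hform _ (natDegree_hasseDeriv_lt hQ k)
  have hy₂' : (P₂.2 : ℚ) ≠ 0 := by exact_mod_cast hy₂
  have hy₁' : (P₁.2 : ℚ) ≠ 0 := by exact_mod_cast hy₁
  set N : ℤ := z₁ * P₂.2 - P₂.1 * z₂ with hN
  have hNq : (N : ℚ) = (P₁.2 : ℚ) ^ (E * u) * P₂.2
      * (aeval ((P₁.1 : ℚ) / P₁.2) (hasseDeriv k P)
        - (P₂.1 : ℚ) / P₂.2 * aeval ((P₁.1 : ℚ) / P₁.2) (hasseDeriv k Q)) := by
    rw [hN]
    push_cast
    rw [hz₁, hz₂]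
    field_simp
  have hN0 : N ≠ 0 := by
    intro h3
    rw [h3, Int.cast_zero] at hNq
    exact (mul_ne_zero (mul_ne_zero (pow_ne_zero _ hy₁') hy₂') hk) hNq.symm
  -- the estimate at one place
  have hLw : ∀ v, L ^ (-(w v)) ≤ 1 := fun v =>
    Real.rpow_le_one_of_one_le_of_nonpos hL1 (by linarith [hw v])
  have hLw0 : ∀ v, 0 < L ^ (-(w v)) := fun v => by positivity
  have hest : ∀ v, ‖(N : (pl v).K)‖ ≤ D ^ u
      * (max ‖(P₁.1 : (pl v).K)‖ ‖(P₁.2 : (pl v).K)‖) ^ (E * u)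
      * max ‖(P₂.1 : (pl v).K)‖ ‖(P₂.2 : (pl v).K)‖ * (L ^ (-(w v))) ^ (S * u - u) := by
    intro v
    have hδ : C₀ * L ^ (-(w v)) ≤ C₀ := by
      have := mul_le_mul_of_nonneg_left (hLw v) (by linarith : (0 : ℝ) ≤ C₀)
      rwa [mul_one] at this
    have h3 := norm_value_le hP hQ (B := K₁ ^ u) (by positivity) hBP hBQ (α := α v) (Y := Y)
      (hYv v) (h := S * u) (hv (pl v).K (α v) (hα v)) (x₁ := P₁.1) (y₁ := P₁.2) (x₂ := P₂.1)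
      (y₂ := P₂.2) hy₁ hy₂ (δ₁ := C₀ * L ^ (-(w v))) (δ₂ := C₀ * (hh P₂ : ℝ) ^ (-(w v)))
      (C₀ := C₀) (by positivity) hδ hC₀ (hap₁ v) (hap₂ v) (k := k) (N := N) hNq
    refine h3.trans ?_
    have hexp : S * u - u ≤ S * u - k := by omega
    have h4 : (C₀ * L ^ (-(w v))) ^ (S * u - k)
        ≤ C₀ ^ (S * u) * (L ^ (-(w v))) ^ (S * u - u) := by
      rw [mul_pow]
      refine mul_le_mul (pow_le_pow_right₀ hC₀ (Nat.sub_le _ _))
        (pow_le_pow_of_le_one (hLw0 v).le (hLw v) hexp) (by positivity) (by positivity)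
    have h5 : C₀ * (hh P₂ : ℝ) ^ (-(w v)) ≤ C₀ ^ (S * u) * (L ^ (-(w v))) ^ (S * u - u) := by
      have h6 : (hh P₂ : ℝ) ^ (-(w v)) ≤ (L ^ (-(w v))) ^ (S * u - u) := by
        calc (hh P₂ : ℝ) ^ (-(w v)) ≤ (L ^ (S * u)) ^ (-(w v)) :=
              Real.rpow_le_rpow_of_nonpos (by positivity) hq (by linarith [hw v])
          _ = (L ^ (-(w v))) ^ (S * u) := by
              rw [← Real.rpow_natCast, ← Real.rpow_natCast, ← Real.rpow_mul hL0.le,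
                ← Real.rpow_mul hL0.le, mul_comm]
          _ ≤ (L ^ (-(w v))) ^ (S * u - u) :=
              pow_le_pow_of_le_one (hLw0 v).le (hLw v) (Nat.sub_le _ _)
      have h7 : C₀ ≤ C₀ ^ (S * u) := by
        calc C₀ = C₀ ^ 1 := (pow_one _).symm
          _ ≤ C₀ ^ (S * u) := pow_le_pow_right₀ hC₀ (Nat.mul_pos (by omega) hu0)
      exact mul_le_mul h7 h6 (by positivity) (by positivity)
    have h6 : (C₀ * L ^ (-(w v))) ^ (S * u - k) + C₀ * (hh P₂ : ℝ) ^ (-(w v))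
        ≤ (2 * C₀ ^ S) ^ u * (L ^ (-(w v))) ^ (S * u - u) := by
      have h7 : (2 : ℝ) ≤ 2 ^ u := by
        calc (2 : ℝ) = 2 ^ 1 := (pow_one _).symm
          _ ≤ 2 ^ u := pow_le_pow_right₀ (by norm_num) hu0
      have h8 : (2 * C₀ ^ S) ^ u = 2 ^ u * C₀ ^ (S * u) := by rw [mul_pow, ← pow_mul]
      rw [h8]
      have h9 : 0 ≤ C₀ ^ (S * u) * (L ^ (-(w v))) ^ (S * u - u) := by positivity
      nlinarith
    have h7 : D ^ u = (16 * Y ^ 2 * C₀) ^ (E * u) * K₁ ^ u * (2 * C₀ ^ S) ^ u := by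
      rw [hD, mul_pow, mul_pow, ← pow_mul]
    rw [h7]
    calc (16 * Y ^ 2 * C₀) ^ (E * u) * K₁ ^ u
          * max ‖(P₁.1 : (pl v).K)‖ ‖(P₁.2 : (pl v).K)‖ ^ (E * u)
          * max ‖(P₂.1 : (pl v).K)‖ ‖(P₂.2 : (pl v).K)‖
          * ((C₀ * L ^ (-(w v))) ^ (S * u - k) + C₀ * (hh P₂ : ℝ) ^ (-(w v)))
        ≤ (16 * Y ^ 2 * C₀) ^ (E * u) * K₁ ^ u
          * max ‖(P₁.1 : (pl v).K)‖ ‖(P₁.2 : (pl v).K)‖ ^ (E * u)
          * max ‖(P₂.1 : (pl v).K)‖ ‖(P₂.2 : (pl v).K)‖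
          * ((2 * C₀ ^ S) ^ u * (L ^ (-(w v))) ^ (S * u - u)) :=
          mul_le_mul_of_nonneg_left h6 (by positivity)
      _ = _ := by ring
  -- the product
  have hprod : (1 : ℝ) ≤ K₂ ^ u * L ^ (E * u) * (hh P₂ : ℝ) * (L ^ (-μ)) ^ (S * u - u) := by
    refine (h1 N hN0).trans ((prod_le_prod (fun v _ => norm_nonneg _) fun v _ => hest v).trans ?_)
    rw [prod_mul_distrib, prod_mul_distrib, prod_mul_distrib, prod_const, prod_pow, prod_pow]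
    have e1 : (D ^ u) ^ (univ : Finset V).card = K₂ ^ u := by
      rw [hK₂, ← pow_mul, ← pow_mul, mul_comm u]
      rfl
    rw [e1]
    have e2 : ∏ v, L ^ (-(w v)) ≤ L ^ (-μ) := by
      rw [← Real.rpow_sum_of_pos hL0]
      refine Real.rpow_le_rpow_of_exponent_le hL1 ?_
      rw [sum_neg_distrib]
      linarith
    have e3 : 0 ≤ ∏ v, L ^ (-(w v)) := prod_nonneg fun v _ => (hLw0 v).le
    have e4 : 0 ≤ ∏ v, max ‖(P₁.1 : (pl v).K)‖ ‖(P₁.2 : (pl v).K)‖ :=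
      prod_nonneg fun v _ => (norm_nonneg _).trans (le_max_left _ _)
    have e5 : 0 ≤ ∏ v, max ‖(P₂.1 : (pl v).K)‖ ‖(P₂.2 : (pl v).K)‖ :=
      prod_nonneg fun v _ => (norm_nonneg _).trans (le_max_left _ _)
    refine mul_le_mul (mul_le_mul (mul_le_mul_of_nonneg_left
      (pow_le_pow_left₀ e4 (h2 P₁) _) (by positivity)) (h2 P₂) e5 (by positivity))
      (pow_le_pow_left₀ e3 e2 _) (by positivity) (by positivity)
  have hfinal := final_lt_one (L := L) (q := (hh P₂ : ℝ)) (μ := μ) (K := K₂) (E := E) (S := S)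
    (u := u) hL2 hK₂0.le hLK₂ hS2 (by
      rw [hE, hS]
      rw [he] at hsμ
      push_cast at hsμ ⊢
      exact hsμ) hμ1 hSu hq hq'
  have h9 : 0 ≤ L ^ (E * u) * (hh P₂ : ℝ) * (K₂ ^ u * (hh P₂ : ℝ) ^ (-μ)) := by positivity
  have h10 : L ^ (E * u) * (hh P₂ : ℝ) * (K₂ ^ u * ((L ^ (-μ)) ^ (S * u - u)
      + (hh P₂ : ℝ) ^ (-μ))) = K₂ ^ u * L ^ (E * u) * (hh P₂ : ℝ) * (L ^ (-μ)) ^ (S * u - u)
      + L ^ (E * u) * (hh P₂ : ℝ) * (K₂ ^ u * (hh P₂ : ℝ) ^ (-μ)) := by ring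
  rw [h10] at hfinal
  linarith

end Fermat.Agent.Cor.Mahl
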