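import Fermat.Agent.Corollaries.Thue.Examples

/-!
# The theorem of Thue and Mahler: statement
-/

open Polynomial

namespace Fermat.Agent.Cor.Mahl

/-- All prime factors of the non-zero integer `m` are in `S`. -/
def IsSUnit (S : Finset ℕ) (m : ℤ) : Prop :=
  m ≠ 0 ∧ ∀ p : ℕ, p.Prime → (p : ℤ) ∣ m → p ∈ S

/-- The theorem of Thue and Mahler (Mahler 1933): a binary form `F` of degree `≥ 3` without multiple
factors takes at coprime integers only finitely many values which are products of primes from a
given finite set. -/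
def ThueMahlerStmt : Prop :=
  ∀ F : ℤ[X], Squarefree (F.map (Int.castRingHom ℚ)) → 3 ≤ F.natDegree →
    ∀ S : Finset ℕ, (∀ p ∈ S, p.Prime) →
      {P : ℤ × ℤ | IsCoprime P.1 P.2 ∧ IsSUnit S (Thue.form F F.natDegree P.1 P.2)}.Finite

end Fermat.Agent.Cor.Mahl
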