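import Fermat.Agent.Corollaries.Mahl.Monic

/-!
# The theorem of Thue and Mahler
-/

open Polynomial Finset

namespace Fermat.Agent.Cor.Mahl

open Fermat.Agent.Cor.Thue

/-- The monic polynomial `a ^ (d - 1) F(X / a)`, `a` the leading coefficient. -/
noncomputable def mon (F : ℤ[X]) : ℤ[X] := integralNormalization F

theorem mon_coeff_lt {F : ℤ[X]} {i : ℕ} (hi : i < F.natDegree) :
    (mon F).coeff i = F.coeff i * F.leadingCoeff ^ (F.natDegree - 1 - i) :=
  integralNormalization_coeff_ne_natDegree hi.ne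

theorem mon_coeff_natDegree {F : ℤ[X]} (hF : F ≠ 0) : (mon F).coeff F.natDegree = 1 :=
  integralNormalization_coeff_natDegree hF

theorem mon_coeff_gt {F : ℤ[X]} {i : ℕ} (hi : F.natDegree < i) : (mon F).coeff i = 0 := by
  have h := integralNormalization_coeff_ne_natDegree (p := F) hi.ne'
  rw [mon, h, coeff_eq_zero_of_natDegree_lt hi, zero_mul]

theorem natDegree_mon {F : ℤ[X]} (hF : F ≠ 0) : (mon F).natDegree = F.natDegree := by
  refine natDegree_eq_of_le_of_coeff_ne_zero ?_ ?_
  · exact natDegree_le_iff_coeff_eq_zero.mpr fun i hi => mon_coeff_gt hi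
  · rw [mon_coeff_natDegree hF]
    exact one_ne_zero

theorem monic_mon {F : ℤ[X]} (hF : F ≠ 0) : (mon F).Monic := by
  rw [Monic, leadingCoeff, natDegree_mon hF, mon_coeff_natDegree hF]

theorem form_mon {F : ℤ[X]} (hF : 1 ≤ F.natDegree) (x y : ℤ) :
    form (mon F) F.natDegree (F.leadingCoeff * x) y
      = F.leadingCoeff ^ (F.natDegree - 1) * form F F.natDegree x y := by
  have hF0 : F ≠ 0 := by
    intro h
    rw [h, natDegree_zero] at hF
    omega
  rw [form, form, mul_sum]
  refine sum_congr rfl fun i hi => ?_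
  rw [mem_range] at hi
  rcases Nat.lt_or_ge i F.natDegree with h | h
  · rw [mon_coeff_lt h, mul_pow]
    have e : F.leadingCoeff ^ (F.natDegree - 1)
        = F.leadingCoeff ^ (F.natDegree - 1 - i) * F.leadingCoeff ^ i := by
      rw [← pow_add]
      congr 1
      omega
    rw [e]
    ring
  · obtain rfl : i = F.natDegree := by omega
    rw [mon_coeff_natDegree hF0, mul_pow, coeff_natDegree]
    have e : F.leadingCoeff ^ F.natDegree
        = F.leadingCoeff ^ (F.natDegree - 1) * F.leadingCoeff := by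
      rw [← pow_succ]
      congr 1
      omega
    rw [e]
    ring

theorem separable_mon {F : ℤ[X]} (hF : 1 ≤ F.natDegree)
    (hsep : (F.map (Int.castRingHom ℚ)).Separable) :
    ((mon F).map (Int.castRingHom ℚ)).Separable := by
  have hF0 : F ≠ 0 := by
    intro h
    rw [h, natDegree_zero] at hF
    omega
  set a : ℚ := (F.leadingCoeff : ℚ) with ha
  have ha0 : a ≠ 0 := by
    rw [ha]
    exact_mod_cast leadingCoeff_ne_zero.mpr hF0
  have h1 : (mon F).map (Int.castRingHom ℚ)
      = C (a ^ (F.natDegree - 1)) * (F.map (Int.castRingHom ℚ)).comp (C a⁻¹ * X) := by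
    ext i
    rw [coeff_map, coeff_C_mul, comp_C_mul_X_coeff, coeff_map]
    simp only [eq_intCast]
    rcases Nat.lt_trichotomy i F.natDegree with h | h | h
    · rw [mon_coeff_lt h]
      push_cast
      rw [← ha]
      have e : a ^ (F.natDegree - 1) = a ^ (F.natDegree - 1 - i) * a ^ i := by
        rw [← pow_add]
        congr 1
        omega
      rw [e, inv_pow]
      field_simp
    · rw [h, mon_coeff_natDegree hF0, coeff_natDegree, ← ha]
      have e : a ^ F.natDegree = a ^ (F.natDegree - 1) * a := by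
        rw [← pow_succ]
        congr 1
        omega
      rw [inv_pow, e]
      push_cast
      field_simp
    · rw [mon_coeff_gt h, coeff_eq_zero_of_natDegree_lt h]
      push_cast
      ring
  rw [h1]
  refine Separable.unit_mul (isUnit_C.mpr (IsUnit.mk0 _ (pow_ne_zero _ ha0))) ?_
  obtain ⟨u, v, huv⟩ := (separable_def' _).mp hsep
  rw [separable_def']
  refine ⟨u.comp (C a⁻¹ * X), C a * v.comp (C a⁻¹ * X), ?_⟩
  have h2 := congrArg (fun p => p.comp (C a⁻¹ * X)) huv
  simp only [add_comp, mul_comp, one_comp] at h2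
  rw [derivative_comp, derivative_C_mul, derivative_X, mul_one]
  have h3 : C a * C a⁻¹ = (1 : ℚ[X]) := by rw [← C_mul, mul_inv_cancel₀ ha0, C_1]
  calc _ = u.comp (C a⁻¹ * X) * (F.map (Int.castRingHom ℚ)).comp (C a⁻¹ * X)
        + (C a * C a⁻¹) * (v.comp (C a⁻¹ * X)
          * (derivative (F.map (Int.castRingHom ℚ))).comp (C a⁻¹ * X)) := by ring
    _ = 1 := by rw [h3, one_mul, h2]

theorem form_mul (F : ℤ[X]) (n : ℕ) (g x y : ℤ) :
    form F n (g * x) (g * y) = g ^ n * form F n x y := by
  rw [form, form, mul_sum]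
  refine sum_congr rfl fun i hi => ?_
  rw [mem_range] at hi
  have e : g ^ n = g ^ i * g ^ (n - i) := by
    rw [← pow_add]
    congr 1
    omega
  rw [e, mul_pow, mul_pow]
  ring

/-- **The theorem of Thue and Mahler** (Mahler 1933). -/
theorem thueMahler : ThueMahlerStmt := by
  classical
  intro F hsq hd S hS
  have hsep : (F.map (Int.castRingHom ℚ)).Separable :=
    PerfectField.separable_iff_squarefree.mpr hsq
  have hF0 : F ≠ 0 := by
    intro h
    rw [h, natDegree_zero] at hd
    omega
  set a : ℤ := F.leadingCoeff with ha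
  have ha0 : a ≠ 0 := leadingCoeff_ne_zero.mpr hF0
  set S' : Finset ℕ := S ∪ a.natAbs.primeFactors with hS'
  have hS'p : ∀ p ∈ S', p.Prime := by
    intro p hp
    rw [hS', mem_union] at hp
    rcases hp with h | h
    · exact hS p h
    · exact Nat.prime_of_mem_primeFactors h
  have h := thueMahler_monic (monic_mon hF0) (separable_mon (by omega) hsep)
    (by rw [natDegree_mon hF0]; exact hd) hS'p
  rw [natDegree_mon hF0] at h
  -- the finite set of pairs `(g, P')`
  have hdiv : {g : ℤ | g ∣ a}.Finite := by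
    refine (Set.finite_Icc (-|a|) |a|).subset fun g hg => ?_
    exact abs_le.mp (Int.le_of_dvd (abs_pos.mpr ha0) ((abs_dvd_abs _ _).mpr hg))
  refine Set.Finite.subset (Set.Finite.biUnion (hdiv.prod h) (t := fun q =>
    {P : ℤ × ℤ | a * P.1 = q.1 * q.2.1 ∧ P.2 = q.1 * q.2.2}) fun q _ =>
      Set.Subsingleton.finite ?_) ?_
  · rintro ⟨x, y⟩ ⟨e1, e2⟩ ⟨x', y'⟩ ⟨e1', e2'⟩
    simp only at e1 e2 e1' e2'
    rw [Prod.mk.injEq]
    exact ⟨mul_left_cancel₀ ha0 (e1.trans e1'.symm), e2.trans e2'.symm⟩
  · rintro ⟨x, y⟩ ⟨hcop, hunit⟩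
    simp only at hcop hunit
    rw [Set.mem_iUnion₂]
    -- the greatest common divisor of `a x` and `y`
    have hne : ¬ (a * x = 0 ∧ y = 0) := by
      rintro ⟨h1, h2⟩
      have h3 : x = 0 := (mul_eq_zero.mp h1).resolve_left ha0
      rw [h2, h3, isCoprime_zero_left] at hcop
      exact not_isUnit_zero hcop
    obtain ⟨x', hx'⟩ := Int.gcd_dvd_left (a := a * x) (b := y)
    obtain ⟨y', hy'⟩ := Int.gcd_dvd_right (a := a * x) (b := y)
    set g : ℤ := (Int.gcd (a * x) y : ℤ) with hg
    have hg0 : g ≠ 0 := by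
      intro h0
      rw [h0, zero_mul] at hx' hy'
      exact hne ⟨hx', hy'⟩
    have hga : g ∣ a := by
      have h1 : IsCoprime g x := by
        have h2 : g ∣ y := ⟨y', hy'⟩
        exact (hcop.of_isCoprime_of_dvd_right h2).symm
      exact h1.dvd_of_dvd_mul_right ⟨x', hx'⟩
    have hcop' : IsCoprime x' y' := by
      rw [Int.isCoprime_iff_gcd_eq_one]
      have h1 : Int.gcd (a * x) y = Int.gcd (g * x') (g * y') := by rw [← hx', ← hy']
      rw [Int.gcd_mul_left] at h1
      have h2 : g.natAbs = Int.gcd (a * x) y := by rw [hg]; rfl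
      rw [← h2] at h1
      have h3 : g.natAbs ≠ 0 := Int.natAbs_ne_zero.mpr hg0
      have h4 : g.natAbs * Int.gcd x' y' = g.natAbs * 1 := by rw [mul_one]; exact h1.symm
      exact Nat.eq_of_mul_eq_mul_left (Nat.pos_of_ne_zero h3) h4
    have hval : g ^ F.natDegree * form (mon F) F.natDegree x' y'
        = a ^ (F.natDegree - 1) * form F F.natDegree x y := by
      rw [← form_mul, ← hx', ← hy', form_mon (by omega)]
    refine ⟨(g, (x', y')), ⟨hga, hcop', ?_⟩, ?_, hy'⟩
    · constructor
      · intro h0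
        rw [h0, mul_zero] at hval
        exact (mul_ne_zero (pow_ne_zero _ ha0) hunit.1) hval.symm
      · intro p hp hpd
        have h1 : (p : ℤ) ∣ a ^ (F.natDegree - 1) * form F F.natDegree x y := by
          rw [← hval]
          exact Dvd.dvd.mul_left hpd _
        have hpp : Prime (p : ℤ) := Nat.prime_iff_prime_int.mp hp
        rw [hS', mem_union]
        rcases hpp.dvd_or_dvd h1 with h2 | h2
        · right
          rw [Nat.mem_primeFactors]
          exact ⟨hp, Int.natCast_dvd.mp (hpp.dvd_of_dvd_pow h2), Int.natAbs_ne_zero.mpr ha0⟩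
        · left
          exact hunit.2 p hp h2
    · simp only
      exact hx'

end Fermat.Agent.Cor.Mahl
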