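import Fermat.Agent.Corollaries.Mahl.Shafarevich
import Fermat.Agent.Corollaries.NOS.Local

/-!
# The isogeny theorem for elliptic curves over `ℚ`

* `shafarevich_good` : Shafarevich's theorem with Mathlib's notion of good reduction;
* `finite_isogeny_class` : the elliptic curves over `ℚ` which are isogenous to a given one form
  finitely many isomorphism classes.
-/

set_option autoImplicit false

noncomputable section

open WeierstrassCurve WeierstrassCurve.Affine
open Fermat.Agent.Cor.K1 (Gam Pts)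
open Fermat.Agent.Cor.MinModel
open Fermat.Agent.Cor.NOS (Min)

namespace Fermat.Agent.Cor.Mahl

/-- Good reduction in Mathlib's sense. -/
theorem goodAt_of_hasGoodReduction {p : ℕ} [Fact p.Prime] {E : WeierstrassCurve ℚ}
    (h : (Min E p).HasGoodReduction ℤ_[p]) : GoodAt p E := by
  refine ⟨integralModel ℤ_[p] (Min E p),
    ((E.map (algebraMap ℚ ℚ_[p])).exists_isMinimal ℤ_[p]).choose, ?_, ?_⟩
  · exact (baseChange_integralModel_eq ℤ_[p] (Min E p)).symm
  · by_contra hu
    have h2 := h.goodReduction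
    have h3 : (integralModel ℤ_[p] (Min E p)).Δ ∈ IsLocalRing.maximalIdeal ℤ_[p] :=
      (IsLocalRing.mem_maximalIdeal _).mpr hu
    have h4 := (IsDedekindDomain.HeightOneSpectrum.valuation_lt_one_iff_mem (K := ℚ_[p])
      (IsDiscreteValuationRing.maximalIdeal ℤ_[p]) _).mpr h3
    have h5 : algebraMap ℤ_[p] ℚ_[p] (integralModel ℤ_[p] (Min E p)).Δ = (Min E p).Δ :=
      integralModel_Δ_eq ℤ_[p] (Min E p)
    change IsDedekindDomain.HeightOneSpectrum.valuation ℚ_[p]
      (IsDiscreteValuationRing.maximalIdeal ℤ_[p])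
      (algebraMap ℤ_[p] ℚ_[p] (integralModel ℤ_[p] (Min E p)).Δ) < 1 at h4
    rw [h5, h2] at h4
    exact lt_irrefl _ h4

/-- **Shafarevich's theorem**, with Mathlib's notion of good reduction: for every finite set `S` of
primes there are only finitely many isomorphism classes of elliptic curves over `ℚ` whose minimal
equation over `ℤ_[p]` has good reduction for every prime `p ∉ S`. -/
theorem shafarevich_good {S : Finset ℕ} (hS : ∀ p ∈ S, p.Prime) :
    ∃ T : Set (WeierstrassCurve ℚ), T.Finite ∧ ∀ E : WeierstrassCurve ℚ, E.Δ ≠ 0 →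
      (∀ (p : ℕ) [Fact p.Prime], p ∉ S →
        ((E.map (algebraMap ℚ ℚ_[p])).minimal ℤ_[p]).HasGoodReduction ℤ_[p]) →
      ∃ W ∈ T, ∃ C : WeierstrassCurve.VariableChange ℚ, C • E = W := by
  obtain ⟨T, hT, h⟩ := shafarevich hS
  exact ⟨T, hT, fun E hE hgood => h E hE fun p _ hp => goodAt_of_hasGoodReduction (hgood p hp)⟩

/-- **The isogeny theorem**: the elliptic curves over `ℚ` which are isogenous over `ℚ` to a given
one form finitely many isomorphism classes. -/
theorem finite_isogeny_class {E : WeierstrassCurve ℚ} (hE : E.Δ ≠ 0) :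
    ∃ T : Set (WeierstrassCurve ℚ), T.Finite ∧ ∀ E' : WeierstrassCurve ℚ, E'.Δ ≠ 0 →
      ∀ φ : Pts E →+ Pts E', Finite φ.ker → (∀ (σ : Gam) (x : Pts E), φ (σ • x) = σ • φ x) →
        ∃ W ∈ T, ∃ C : WeierstrassCurve.VariableChange ℚ, C • E' = W := by
  obtain ⟨W, hW, hΔ, -, -⟩ := NOS.exists_model hE
  obtain ⟨T, hT, h⟩ := shafarevich_good (S := W.Δ.natAbs.primeFactors)
    (fun p hp => Nat.prime_of_mem_primeFactors hp)
  refine ⟨T, hT, fun E' hE' φ hker hφ => h E' hE' fun p _ hp => ?_⟩
  refine (NOS.reduction_iff hE hE' φ hker hφ p).1.mp ?_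
  rw [NOS.hasGoodReduction_iff_not_dvd hE hW]
  intro hd
  apply hp
  rw [Nat.mem_primeFactors]
  exact ⟨Fact.out, Int.natCast_dvd.mp hd, Int.natAbs_ne_zero.mpr hΔ⟩

end Fermat.Agent.Cor.Mahl
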