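import Fermat.Agent.Corollaries.Mahl.Defs

/-!
# The auxiliary polynomials at all places
-/

open Polynomial Finset

namespace Fermat.Agent.Cor.Mahl

open Fermat.Agent.Cor.Thue

theorem sum_pw' {K : Type*} [CommRing K] {f : ℤ[X]} {e : ℕ} (hf : f.Monic)
    (hd : f.natDegree = e + 1) {α : K} (hα : aeval α f = 0) (j : ℕ) :
    ∑ l ∈ range (e + 1), (pw f e j l : K) * α ^ l = α ^ j := by
  have key : ∑ l ∈ range e, (f.coeff (l + 1) : K) * α ^ (l + 1) + (f.coeff 0 : K)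
      + α ^ (e + 1) = 0 := by
    rw [← hα, aeval_eq_sum_range, hd, sum_range_succ, sum_range_succ']
    have h1 : f.coeff (e + 1) = 1 := by
      rw [← hd]; exact hf
    simp [h1, zsmul_eq_mul]
  induction j with
  | zero =>
    rw [sum_range_succ']
    simp [pw]
  | succ j ih =>
    rw [sum_range_succ] at ih
    rw [sum_range_succ']
    have h2 : ∑ l ∈ range e, ((pw f e (j + 1) (l + 1) : ℤ) : K) * α ^ (l + 1)
        = α * ∑ l ∈ range e, (pw f e j l : K) * α ^ l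
          - (pw f e j e : K) * ∑ l ∈ range e, (f.coeff (l + 1) : K) * α ^ (l + 1) := by
      rw [mul_sum, mul_sum, ← sum_sub_distrib]
      refine sum_congr rfl fun l _ => ?_
      simp only [pw]
      push_cast
      ring
    rw [h2]
    have h3 : ((pw f e (j + 1) 0 : ℤ) : K) = -((pw f e j e : K) * (f.coeff 0 : K)) := by
      simp only [pw]
      push_cast
      ring
    rw [h3]
    linear_combination α * ih - (pw f e j e : K) * key

theorem aeval_hasseDeriv' {K : Type*} [CommRing K] {U : ℤ[X]} {n : ℕ} (hU : U.natDegree < n)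
    (k : ℕ) (x : K) : aeval x (hasseDeriv k U) =
      ∑ i ∈ range n, (i.choose k : K) * (U.coeff i : K) * x ^ (i - k) := by
  rw [hasseDeriv_apply, sum_over_range' U (by simp) n hU, map_sum]
  refine sum_congr rfl fun i _ => ?_
  rw [aeval_monomial]
  simp

attribute [local instance] Matrix.seminormedAddCommGroup

open Matrix in
/-- Siegel's lemma: `P - α Q` vanishes to the order `h` at every root `α` of `f` in every field. -/
theorem exists_small' {f : ℤ[X]} {e : ℕ} (hf : f.Monic) (hd : f.natDegree = e + 1)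
    {H : ℤ} (hH : ∀ i, |f.coeff i| ≤ H) {n h s : ℕ} (h0 : 0 < h)
    (hn : 2 * n * s = (s + 1) * (h * (e + 1))) :
    ∃ P Q : ℤ[X], (P ≠ 0 ∨ Q ≠ 0) ∧ P.natDegree < n ∧ Q.natDegree < n ∧
      (∀ i, (|P.coeff i| : ℝ) ≤ (4 * (1 + H)) ^ (n * s)) ∧
      (∀ i, (|Q.coeff i| : ℝ) ≤ (4 * (1 + H)) ^ (n * s)) ∧
      ∀ (K : Type) [Field K] (α : K), aeval α f = 0 →
        ∀ k < h, aeval α (hasseDeriv k P) - α * aeval α (hasseDeriv k Q) = 0 := by
  have hH0 : 0 ≤ H := (abs_nonneg _).trans (hH 0)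
  have hH0' : (0 : ℝ) ≤ H := by exact_mod_cast hH0
  have hn0 : 0 < n := by
    rcases Nat.eq_zero_or_pos n with h1 | h1
    · rw [h1] at hn
      simp at hn
      omega
    · exact h1
  let A : Matrix (Fin h × Fin (e + 1)) (Fin n ⊕ Fin n) ℤ := fun kl i =>
    Sum.elim (fun i : Fin n => ((i : ℕ).choose kl.1 : ℤ) * pw f e ((i : ℕ) - kl.1) kl.2)
      (fun i : Fin n => -(((i : ℕ).choose kl.1 : ℤ) * pw f e ((i : ℕ) - kl.1 + 1) kl.2)) i
  have hc1 : Fintype.card (Fin h × Fin (e + 1)) = h * (e + 1) := by simp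
  have hc2 : Fintype.card (Fin n ⊕ Fin n) = 2 * n := by simp; ring
  have hlt : h * (e + 1) < 2 * n := by
    by_contra hcon
    push Not at hcon
    have h1 : 2 * n * s ≤ h * (e + 1) * s := Nat.mul_le_mul_right _ hcon
    have h2 : 0 < h * (e + 1) := by positivity
    nlinarith
  obtain ⟨t, ht0, ht1, ht2⟩ := Int.Matrix.exists_ne_zero_int_vec_norm_le A
    (by rw [hc1, hc2]; exact hlt) (by rw [hc1]; positivity)
  rw [hc1, hc2] at ht2
  have hexp : ((h * (e + 1) : ℕ) : ℝ) / (((2 * n : ℕ) : ℝ) - ((h * (e + 1) : ℕ) : ℝ)) = (s : ℝ) := by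
    have h1 : (0 : ℝ) < ((2 * n : ℕ) : ℝ) - ((h * (e + 1) : ℕ) : ℝ) := by
      rw [sub_pos]; exact_mod_cast hlt
    rw [div_eq_iff h1.ne']
    have h2 : (((2 * n * s : ℕ)) : ℝ) = (((s + 1) * (h * (e + 1)) : ℕ) : ℝ) := by rw [hn]
    push_cast at h2 ⊢
    linarith
  rw [hexp, Real.rpow_natCast] at ht2
  have hA : ‖A‖ ≤ (2 * (1 + (H : ℝ))) ^ n := by
    rw [Matrix.norm_le_iff (by positivity)]
    have hbin : ∀ (i : Fin n) (k : ℕ), (((i : ℕ).choose k : ℕ) : ℝ) ≤ 2 ^ (n - 1) := by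
      intro i k
      calc (((i : ℕ).choose k : ℕ) : ℝ) ≤ ((2 ^ (i : ℕ) : ℕ) : ℝ) := by
            exact_mod_cast Nat.choose_le_two_pow _ _
        _ = 2 ^ (i : ℕ) := by push_cast; rfl
        _ ≤ 2 ^ (n - 1) := pow_le_pow_right₀ (by norm_num) (by omega)
    have hpw : ∀ (j l : ℕ), j ≤ n → (|pw f e j l| : ℝ) ≤ (1 + (H : ℝ)) ^ n := by
      intro j l hj
      calc (|pw f e j l| : ℝ) = ((|pw f e j l| : ℤ) : ℝ) := by push_cast; rfl
        _ ≤ (((1 + H) ^ j : ℤ) : ℝ) := by exact_mod_cast abs_pw_le hH j l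
        _ = (1 + (H : ℝ)) ^ j := by push_cast; rfl
        _ ≤ (1 + (H : ℝ)) ^ n := pow_le_pow_right₀ (by linarith) hj
    have hfin : ∀ (i : Fin n) (k j l : ℕ), j ≤ n →
        ((i : ℕ).choose k : ℝ) * (|pw f e j l| : ℝ) ≤ (2 * (1 + (H : ℝ))) ^ n := by
      intro i k j l hj
      rw [mul_pow]
      refine mul_le_mul ((hbin i k).trans (pow_le_pow_right₀ (by norm_num) (by omega)))
        (hpw j l hj) (abs_nonneg _) (by positivity)
    rintro ⟨k, l⟩ (i | i)
    · simp only [A, Sum.elim_inl, Int.norm_eq_abs, Int.cast_mul, abs_mul, Int.cast_natCast,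
        Nat.abs_cast]
      exact hfin i k _ l (by omega)
    · simp only [A, Sum.elim_inr, Int.norm_eq_abs, Int.cast_neg, Int.cast_mul, abs_neg, abs_mul,
        Int.cast_natCast, Nat.abs_cast]
      exact hfin i k _ l (by omega)
  have hB : ‖t‖ ≤ (4 * (1 + (H : ℝ))) ^ (n * s) := by
    refine ht2.trans ?_
    rw [pow_mul]
    refine pow_le_pow_left₀ (by positivity) ?_ s
    have h1 : (((2 * n : ℕ)) : ℝ) ≤ 2 ^ n := by
      have h2 : 2 * n ≤ 2 ^ n := by
        obtain ⟨m, rfl⟩ : ∃ m, n = m + 1 := ⟨n - 1, by omega⟩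
        have h3 : m < 2 ^ m := Nat.lt_two_pow_self
        rw [pow_succ]
        omega
      exact_mod_cast h2
    have h2 : max 1 ‖A‖ ≤ (2 * (1 + (H : ℝ))) ^ n :=
      max_le (one_le_pow₀ (by linarith)) hA
    calc (((2 * n : ℕ)) : ℝ) * max 1 ‖A‖ ≤ 2 ^ n * (2 * (1 + (H : ℝ))) ^ n :=
          mul_le_mul h1 h2 (by positivity) (by positivity)
      _ = (4 * (1 + (H : ℝ))) ^ n := by rw [← mul_pow]; congr 1; ring
  have hcoeff : ∀ i, (|(t i : ℝ)|) ≤ (4 * (1 + (H : ℝ))) ^ (n * s) := fun i => by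
    rw [← Int.norm_eq_abs]
    exact (norm_le_pi_norm t i).trans hB
  classical
  refine ⟨ofFn n (fun i => t (Sum.inl i)), ofFn n (fun i => t (Sum.inr i)), ?_,
    ofFn_natDegree_lt hn0 _, ofFn_natDegree_lt hn0 _, ?_, ?_, ?_⟩
  · by_contra hcon
    push Not at hcon
    apply ht0
    funext i
    rcases i with i | i
    · have := congrArg (fun p => p.coeff (i : ℕ)) hcon.1
      simpa [ofFn_coeff_eq_val_of_lt _ i.2] using this
    · have := congrArg (fun p => p.coeff (i : ℕ)) hcon.2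
      simpa [ofFn_coeff_eq_val_of_lt _ i.2] using this
  · intro i
    by_cases hi : i < n
    · rw [ofFn_coeff_eq_val_of_lt _ hi]
      exact hcoeff _
    · rw [ofFn_coeff_eq_zero_of_ge _ (not_lt.mp hi)]
      simp only [Int.cast_zero, abs_zero]
      positivity
  · intro i
    by_cases hi : i < n
    · rw [ofFn_coeff_eq_val_of_lt _ hi]
      exact hcoeff _
    · rw [ofFn_coeff_eq_zero_of_ge _ (not_lt.mp hi)]
      simp only [Int.cast_zero, abs_zero]
      positivity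
  · intro K _ α hα k hk
    rw [aeval_hasseDeriv' (ofFn_natDegree_lt hn0 _), aeval_hasseDeriv' (ofFn_natDegree_lt hn0 _),
      ← Fin.sum_univ_eq_sum_range (fun i => (i.choose k : K) *
        (((ofFn n (fun i => t (Sum.inl i))).coeff i : ℤ) : K) * α ^ (i - k)) n,
      ← Fin.sum_univ_eq_sum_range (fun i => (i.choose k : K) *
        (((ofFn n (fun i => t (Sum.inr i))).coeff i : ℤ) : K) * α ^ (i - k)) n]
    have hz : ∀ l ∈ range (e + 1),
        (∑ i : Fin n, ((i : ℕ).choose k : K) * (pw f e ((i : ℕ) - k) l : K) * (t (Sum.inl i) : K))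
        - (∑ i : Fin n, ((i : ℕ).choose k : K) * (pw f e ((i : ℕ) - k + 1) l : K)
          * (t (Sum.inr i) : K)) = 0 := by
      intro l hl
      have h1 := congrFun ht1 (⟨k, hk⟩, ⟨l, mem_range.mp hl⟩)
      simp only [Matrix.mulVec, dotProduct, A, Fintype.sum_sum_type, Sum.elim_inl, Sum.elim_inr,
        Pi.zero_apply, neg_mul, sum_neg_distrib] at h1
      have h2 := congrArg (fun z : ℤ => (z : K)) h1
      push_cast at h2
      rw [sub_eq_add_neg]
      exact h2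
    have h3 : ∑ l ∈ range (e + 1),
        ((∑ i : Fin n, ((i : ℕ).choose k : K) * (pw f e ((i : ℕ) - k) l : K) * (t (Sum.inl i) : K))
        - (∑ i : Fin n, ((i : ℕ).choose k : K) * (pw f e ((i : ℕ) - k + 1) l : K)
          * (t (Sum.inr i) : K))) * α ^ l = 0 :=
      sum_eq_zero fun l hl => by rw [hz l hl, zero_mul]
    rw [← h3]
    simp only [sub_mul, sum_sub_distrib, sum_mul]
    rw [sum_comm, sum_comm (s := range (e + 1)), mul_sum]
    congr 1
    · refine sum_congr rfl fun i _ => ?_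
      rw [ofFn_coeff_eq_val_of_lt _ i.2, ← sum_pw' hf hd hα ((i : ℕ) - k), mul_sum]
      refine sum_congr rfl fun l _ => ?_
      ring
    · refine sum_congr rfl fun i _ => ?_
      rw [ofFn_coeff_eq_val_of_lt _ i.2]
      have h4 : α * (((i : ℕ).choose k : K) * (t (Sum.inr ⟨(i : ℕ), i.2⟩) : K) * α ^ ((i : ℕ) - k))
          = ((i : ℕ).choose k : K) * (t (Sum.inr i) : K) * α ^ ((i : ℕ) - k + 1) := by
        rw [pow_succ]
        simp only [Fin.eta]
        ring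
      rw [h4, ← sum_pw' hf hd hα ((i : ℕ) - k + 1), mul_sum]
      refine sum_congr rfl fun l _ => ?_
      ring

section Norm

variable {K : Type} [NormedField K]

theorem norm_intCast_le' (m : ℤ) : ‖(m : K)‖ ≤ |(m : ℝ)| := by
  have h1 : ∀ j : ℕ, ‖(j : K)‖ ≤ j := by
    intro j
    have := Nat.norm_cast_le (α := K) j
    rwa [norm_one, mul_one] at this
  rcases Int.natAbs_eq m with h | h
  · rw [h]
    push_cast
    simpa using h1 m.natAbs
  · rw [h]
    push_cast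
    rw [norm_neg, abs_neg]
    simpa using h1 m.natAbs

theorem norm_natCast_le' (m : ℕ) : ‖(m : K)‖ ≤ m := by
  have := Nat.norm_cast_le (α := K) m
  rwa [norm_one, mul_one] at this

/-- The size of the derivatives, homogeneous form. -/
theorem norm_aeval_le {U : ℤ[X]} {n : ℕ} (hU : U.natDegree < n) {B : ℝ} (hB0 : 0 ≤ B)
    (hB : ∀ i, (|(U.coeff i : ℝ)|) ≤ B) {x y : K} (hy : y ≠ 0) {M : ℝ} (hx : ‖x‖ ≤ M)
    (hyM : ‖y‖ ≤ M) (k : ℕ) : ‖y ^ n * aeval (x / y) (hasseDeriv k U)‖ ≤ 4 ^ n * B * M ^ n := by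
  have hM0 : 0 ≤ M := (norm_nonneg x).trans hx
  rw [aeval_hasseDeriv' hU, mul_sum]
  have hterm : ∀ i ∈ range n,
      ‖y ^ n * ((i.choose k : K) * (U.coeff i : K) * (x / y) ^ (i - k))‖ ≤ 2 ^ n * B * M ^ n := by
    intro i hi
    rw [mem_range] at hi
    have h1 : y ^ n * ((i.choose k : K) * (U.coeff i : K) * (x / y) ^ (i - k))
        = (i.choose k : K) * (U.coeff i : K) * (x ^ (i - k) * y ^ (n - (i - k))) := by
      have h2 : y ^ n = y ^ (n - (i - k)) * y ^ (i - k) := by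
        rw [← pow_add]
        congr 1
        omega
      rw [h2, div_pow]
      field_simp
    rw [h1, norm_mul, norm_mul, norm_mul, norm_pow, norm_pow]
    have h3 : ‖x‖ ^ (i - k) * ‖y‖ ^ (n - (i - k)) ≤ M ^ n := by
      calc ‖x‖ ^ (i - k) * ‖y‖ ^ (n - (i - k)) ≤ M ^ (i - k) * M ^ (n - (i - k)) :=
            mul_le_mul (pow_le_pow_left₀ (norm_nonneg _) hx _)
              (pow_le_pow_left₀ (norm_nonneg _) hyM _) (by positivity) (by positivity)
        _ = M ^ n := by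
            rw [← pow_add]
            congr 1
            omega
    exact mul_le_mul (mul_le_mul ((norm_natCast_le' _).trans (cast_le_two_pow hi.le k))
      ((norm_intCast_le' _).trans (hB i)) (norm_nonneg _) (by positivity)) h3 (by positivity)
      (by positivity)
  refine (norm_sum_le _ _).trans ((sum_le_sum hterm).trans ?_)
  rw [sum_const, card_range, nsmul_eq_mul]
  have h2 : (4 : ℝ) ^ n * B * M ^ n = 2 ^ n * (2 ^ n * B * M ^ n) := by
    rw [show (4 : ℝ) = 2 * 2 by norm_num, mul_pow]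
    ring
  rw [h2]
  exact mul_le_mul_of_nonneg_right (natCast_le_two_pow n) (by positivity)

theorem norm_aeval_le₁ {U : ℤ[X]} {n : ℕ} (hU : U.natDegree < n) {B : ℝ} (hB0 : 0 ≤ B)
    (hB : ∀ i, (|(U.coeff i : ℝ)|) ≤ B) {x : K} {Y : ℝ} (hx : ‖x‖ ≤ Y) (hY : 1 ≤ Y) (k : ℕ) :
    ‖aeval x (hasseDeriv k U)‖ ≤ (4 * Y) ^ n * B := by
  have h := norm_aeval_le hU hB0 hB (x := x) (y := (1 : K)) one_ne_zero hx
    (by rw [norm_one]; exact hY) k
  rw [one_pow, one_mul, div_one] at h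
  rw [mul_pow]
  calc _ ≤ 4 ^ n * B * Y ^ n := h
    _ = 4 ^ n * Y ^ n * B := by ring

theorem aeval_taylor' {U : ℤ[X]} {n : ℕ} (hU : U.natDegree < n) (k : ℕ) (x α : K) :
    aeval x (hasseDeriv k U) =
      ∑ i ∈ range n, ((i + k).choose i : K) * aeval α (hasseDeriv (i + k) U) * (x - α) ^ i := by
  have h5 : ∀ (j : ℕ) (y : K), aeval y (hasseDeriv j U)
      = (hasseDeriv j (U.map (Int.castRingHom K))).eval y := by
    intro j y
    rw [hasseDeriv_map', eval_map, aeval_def]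
    rfl
  rw [h5]
  set g := hasseDeriv k (U.map (Int.castRingHom K)) with hg
  have h6 : g.eval x = (taylor α g).eval (x - α) := by
    rw [taylor_eval, sub_add_cancel]
  have h7 : (taylor α g).natDegree < n := by
    rw [natDegree_taylor, hg]
    refine (natDegree_hasseDeriv_le _ _).trans_lt (lt_of_le_of_lt (Nat.sub_le _ _) ?_)
    exact lt_of_le_of_lt natDegree_map_le hU
  rw [h6, eval_eq_sum_range' h7]
  refine sum_congr rfl fun i _ => ?_
  rw [taylor_coeff, h5, hg]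
  have h8 := LinearMap.congr_fun (hasseDeriv_comp (R := K) i k) (U.map (Int.castRingHom K))
  rw [LinearMap.comp_apply] at h8
  rw [h8, LinearMap.smul_apply, eval_smul, nsmul_eq_mul]

/-- The derivatives of `P - α Q` are small near `α`, homogeneous form. -/
theorem norm_diff_le {P Q : ℤ[X]} {n : ℕ} (hP : P.natDegree < n) (hQ : Q.natDegree < n) {B : ℝ}
    (hB0 : 0 ≤ B) (hBP : ∀ i, (|(P.coeff i : ℝ)|) ≤ B) (hBQ : ∀ i, (|(Q.coeff i : ℝ)|) ≤ B)
    {α : K} {Y : ℝ} (hY : 1 + ‖α‖ ≤ Y) {h : ℕ}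
    (hv : ∀ k < h, aeval α (hasseDeriv k P) - α * aeval α (hasseDeriv k Q) = 0) {x y : K}
    (hy : y ≠ 0) {M δ C₀ : ℝ} (hyM : ‖y‖ ≤ M) (hδ0 : 0 ≤ δ) (hδ : δ ≤ C₀) (hC₀ : 1 ≤ C₀)
    (hx : ‖x - α * y‖ ≤ δ * M) {k : ℕ} :
    ‖y ^ n * (aeval (x / y) (hasseDeriv k P) - α * aeval (x / y) (hasseDeriv k Q))‖
      ≤ (16 * Y ^ 2 * C₀) ^ n * B * δ ^ (h - k) * M ^ n := by
  have hα0 := norm_nonneg α
  have hY1 : 1 ≤ Y := by linarith
  have hn : 1 ≤ n := by omega
  have hM0 : 0 ≤ M := (norm_nonneg y).trans hyM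
  rw [aeval_taylor' hP k (x / y) α, aeval_taylor' hQ k (x / y) α, mul_sum, ← sum_sub_distrib,
    mul_sum]
  have hterm : ∀ i ∈ range n,
      ‖y ^ n * (((i + k).choose i : K) * aeval α (hasseDeriv (i + k) P) * (x / y - α) ^ i
        - α * (((i + k).choose i : K) * aeval α (hasseDeriv (i + k) Q) * (x / y - α) ^ i))‖
      ≤ 2 ^ n * ((4 * Y) ^ n * B * Y) * (C₀ ^ n * δ ^ (h - k) * M ^ n) := by
    intro i hi
    rw [mem_range] at hi
    have h1 : y ^ n * (((i + k).choose i : K) * aeval α (hasseDeriv (i + k) P) * (x / y - α) ^ i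
        - α * (((i + k).choose i : K) * aeval α (hasseDeriv (i + k) Q) * (x / y - α) ^ i))
        = ((i + k).choose i : K) * (aeval α (hasseDeriv (i + k) P)
          - α * aeval α (hasseDeriv (i + k) Q)) * ((x - α * y) ^ i * y ^ (n - i)) := by
      have h2 : y ^ n = y ^ (n - i) * y ^ i := by
        rw [← pow_add]
        congr 1
        omega
      have h3 : x - α * y = (x / y - α) * y := by field_simp
      rw [h3, mul_pow, h2]
      ring
    rw [h1]
    by_cases hik : i + k < h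
    · rw [hv _ hik]
      simp only [mul_zero, zero_mul, norm_zero]
      positivity
    · by_cases hin : i + k ≤ n
      · rw [norm_mul, norm_mul, norm_mul, norm_pow, norm_pow]
        have h2 : ‖x - α * y‖ ^ i * ‖y‖ ^ (n - i) ≤ C₀ ^ n * δ ^ (h - k) * M ^ n := by
          calc ‖x - α * y‖ ^ i * ‖y‖ ^ (n - i) ≤ (δ * M) ^ i * M ^ (n - i) :=
                mul_le_mul (pow_le_pow_left₀ (norm_nonneg _) hx _)
                  (pow_le_pow_left₀ (norm_nonneg _) hyM _) (by positivity) (by positivity)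
            _ = δ ^ i * M ^ n := by
                rw [mul_pow, mul_assoc, ← pow_add]
                congr 2
                omega
            _ = δ ^ (i - (h - k)) * δ ^ (h - k) * M ^ n := by
                rw [← pow_add]
                congr 2
                omega
            _ ≤ C₀ ^ n * δ ^ (h - k) * M ^ n := by
                refine mul_le_mul_of_nonneg_right (mul_le_mul_of_nonneg_right ?_ (by positivity))
                  (by positivity)
                exact (pow_le_pow_left₀ hδ0 hδ _).trans (pow_le_pow_right₀ hC₀ (by omega))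
        have hP1 := norm_aeval_le₁ hP hB0 hBP (x := α) (Y := Y) (by linarith) hY1 (i + k)
        have hQ1 := norm_aeval_le₁ hQ hB0 hBQ (x := α) (Y := Y) (by linarith) hY1 (i + k)
        have h3 : ‖aeval α (hasseDeriv (i + k) P) - α * aeval α (hasseDeriv (i + k) Q)‖
            ≤ (4 * Y) ^ n * B * Y := by
          refine (norm_sub_le _ _).trans ?_
          rw [norm_mul]
          have h4 : ‖α‖ * ‖aeval α (hasseDeriv (i + k) Q)‖ ≤ ‖α‖ * ((4 * Y) ^ n * B) :=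
            mul_le_mul_of_nonneg_left hQ1 hα0
          have h5 : 0 ≤ (4 * Y) ^ n * B := by positivity
          nlinarith
        exact mul_le_mul (mul_le_mul ((norm_natCast_le' _).trans (cast_le_two_pow hin i)) h3
          (norm_nonneg _) (by positivity)) h2 (by positivity) (by positivity)
      · have hz : ∀ U : ℤ[X], U.natDegree < n → hasseDeriv (i + k) U = 0 := fun U hU =>
          hasseDeriv_eq_zero_of_lt_natDegree _ _ (by omega)
        rw [hz P hP, hz Q hQ]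
        simp only [map_zero, mul_zero, sub_zero, zero_mul, norm_zero]
        positivity
  refine (norm_sum_le _ _).trans ((sum_le_sum hterm).trans ?_)
  rw [sum_const, card_range, nsmul_eq_mul]
  have h6 : Y ≤ Y ^ n := by
    calc Y = Y ^ 1 := (pow_one Y).symm
      _ ≤ Y ^ n := pow_le_pow_right₀ hY1 hn
  have h7 : (16 * Y ^ 2 * C₀) ^ n * B * δ ^ (h - k) * M ^ n
      = 2 ^ n * (2 ^ n * ((4 * Y) ^ n * B * Y ^ n) * (C₀ ^ n * δ ^ (h - k) * M ^ n)) := by
    have : (16 * Y ^ 2 * C₀) ^ n = 2 ^ n * (2 ^ n * ((4 * Y) ^ n * Y ^ n)) * C₀ ^ n := by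
      rw [← mul_pow, ← mul_pow, ← mul_pow, ← mul_pow]
      congr 1
      ring
    rw [this]
    ring
  rw [h7]
  refine mul_le_mul (natCast_le_two_pow n) ?_ (by positivity) (by positivity)
  refine mul_le_mul_of_nonneg_right ?_ (by positivity)
  refine mul_le_mul_of_nonneg_left ?_ (by positivity)
  exact mul_le_mul_of_nonneg_left h6 (by positivity)

/-- The value of the auxiliary form at two approximations. -/
theorem norm_value_le [CharZero K] {P Q : ℤ[X]} {n : ℕ} (hP : P.natDegree < n)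
    (hQ : Q.natDegree < n) {B : ℝ}
    (hB0 : 0 ≤ B) (hBP : ∀ i, (|(P.coeff i : ℝ)|) ≤ B) (hBQ : ∀ i, (|(Q.coeff i : ℝ)|) ≤ B)
    {α : K} {Y : ℝ} (hY : 1 + ‖α‖ ≤ Y) {h : ℕ}
    (hv : ∀ k < h, aeval α (hasseDeriv k P) - α * aeval α (hasseDeriv k Q) = 0)
    {x₁ y₁ x₂ y₂ : ℤ} (hy₁ : y₁ ≠ 0) (hy₂ : y₂ ≠ 0) {δ₁ δ₂ C₀ : ℝ} (hδ0 : 0 ≤ δ₁)
    (hδ : δ₁ ≤ C₀) (hC₀ : 1 ≤ C₀)
    (hx₁ : ‖(x₁ : K) - α * y₁‖ ≤ δ₁ * max ‖(x₁ : K)‖ ‖(y₁ : K)‖)
    (hx₂ : ‖(x₂ : K) - α * y₂‖ ≤ δ₂ * max ‖(x₂ : K)‖ ‖(y₂ : K)‖) {k : ℕ} {N : ℤ}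
    (hN : (N : ℚ) = (y₁ : ℚ) ^ n * y₂ * (aeval ((x₁ : ℚ) / y₁) (hasseDeriv k P)
      - (x₂ : ℚ) / y₂ * aeval ((x₁ : ℚ) / y₁) (hasseDeriv k Q))) :
    ‖(N : K)‖ ≤ (16 * Y ^ 2 * C₀) ^ n * B * (max ‖(x₁ : K)‖ ‖(y₁ : K)‖) ^ n
      * max ‖(x₂ : K)‖ ‖(y₂ : K)‖ * (δ₁ ^ (h - k) + δ₂) := by
  have hα0 := norm_nonneg α
  have hY1 : 1 ≤ Y := by linarith
  have hy₁' : (y₁ : K) ≠ 0 := by exact_mod_cast hy₁
  have hy₂' : (y₂ : K) ≠ 0 := by exact_mod_cast hy₂
  have hcast : ∀ U : ℤ[X], (((aeval ((x₁ : ℚ) / y₁) U : ℚ)) : K) = aeval ((x₁ : K) / y₁) U := by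
    intro U
    have h3 := aeval_algebraMap_apply (A := ℚ) K ((x₁ : ℚ) / y₁) U
    rw [eq_ratCast, eq_ratCast] at h3
    rw [← h3]
    push_cast
    rfl
  have hNK : (N : K) = y₂ * ((y₁ : K) ^ n * (aeval ((x₁ : K) / y₁) (hasseDeriv k P)
      - α * aeval ((x₁ : K) / y₁) (hasseDeriv k Q)))
      - ((x₂ : K) - α * y₂) * ((y₁ : K) ^ n * aeval ((x₁ : K) / y₁) (hasseDeriv k Q)) := by
    have h1 := congrArg (fun r : ℚ => (r : K)) hN
    push_cast at h1
    rw [hcast, hcast] at h1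
    rw [h1]
    field_simp
    ring
  have hM₁ := le_max_right ‖(x₁ : K)‖ ‖(y₁ : K)‖
  have hM₁' := le_max_left ‖(x₁ : K)‖ ‖(y₁ : K)‖
  have hM₂ := le_max_right ‖(x₂ : K)‖ ‖(y₂ : K)‖
  set M₁ := max ‖(x₁ : K)‖ ‖(y₁ : K)‖ with hM₁def
  set M₂ := max ‖(x₂ : K)‖ ‖(y₂ : K)‖ with hM₂def
  have hM₁0 : 0 ≤ M₁ := (norm_nonneg _).trans hM₁
  have hM₂0 : 0 ≤ M₂ := (norm_nonneg _).trans hM₂
  have e1 := norm_diff_le hP hQ hB0 hBP hBQ hY hv hy₁' hM₁ hδ0 hδ hC₀ hx₁ (k := k)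
  have e2 := norm_aeval_le hQ hB0 hBQ hy₁' hM₁' hM₁ k
  have hδ₂M : 0 ≤ δ₂ * M₂ := (norm_nonneg _).trans hx₂
  have e3 : 4 ^ n * B * M₁ ^ n ≤ (16 * Y ^ 2 * C₀) ^ n * B * M₁ ^ n := by
    refine mul_le_mul_of_nonneg_right (mul_le_mul_of_nonneg_right ?_ hB0) (by positivity)
    refine pow_le_pow_left₀ (by norm_num) ?_ n
    have h1 : 1 ≤ Y ^ 2 := one_le_pow₀ hY1
    have h2 : 1 ≤ Y ^ 2 * C₀ := one_le_mul_of_one_le_of_one_le h1 hC₀
    linarith
  rw [hNK]
  refine (norm_sub_le _ _).trans ?_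
  rw [norm_mul (y₂ : K) _, norm_mul ((x₂ : K) - α * y₂) _]
  calc ‖(y₂ : K)‖ * ‖(y₁ : K) ^ n * (aeval ((x₁ : K) / y₁) (hasseDeriv k P)
        - α * aeval ((x₁ : K) / y₁) (hasseDeriv k Q))‖
      + ‖(x₂ : K) - α * y₂‖ * ‖(y₁ : K) ^ n * aeval ((x₁ : K) / y₁) (hasseDeriv k Q)‖
      ≤ M₂ * ((16 * Y ^ 2 * C₀) ^ n * B * δ₁ ^ (h - k) * M₁ ^ n)
        + (δ₂ * M₂) * ((16 * Y ^ 2 * C₀) ^ n * B * M₁ ^ n) := by
        refine add_le_add (mul_le_mul hM₂ e1 (norm_nonneg _) hM₂0)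
          (mul_le_mul hx₂ (e2.trans e3) (norm_nonneg _) hδ₂M)
    _ = _ := by ring

end Norm

end Fermat.Agent.Cor.Mahl
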