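import Fermat.Agent.Corollaries.Mahl.Places

/-!
# The theorem of Thue and Mahler for monic polynomials
-/

open Polynomial Finset

namespace Fermat.Agent.Cor.Mahl

open Fermat.Agent.Cor.Thue

/-- The weights. -/
theorem exists_weights {V : Type} [Fintype V] {d : ℕ} (hd : 3 ≤ d) {C₀ C₂ H : ℝ} (hC₀ : 1 ≤ C₀)
    (hH : 2 ≤ H) (hC₂H : C₂ ^ 4 ≤ H) (δ : V → ℝ)
    (hδ : ∀ v, δ v ≤ C₀) (hprod : H ^ d * ∏ v, δ v ≤ C₂) :
    ∃ j : V → Fin ((4 * d + 9) * (Fintype.card V + 1) + 1),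
      (4 * d + 9) * (Fintype.card V + 1) ≤ ∑ v, (j v : ℕ) ∧
      ∀ v, δ v ≤ C₀ * H ^ (-((j v : ℕ) : ℝ) / (8 * (Fintype.card V + 1))) := by
  classical
  set κ : ℕ := Fintype.card V + 1 with hκ
  set J : ℕ := (4 * d + 9) * κ with hJ
  have hH0 : 0 < H := by linarith
  have hH1 : 1 ≤ H := by linarith
  have hκ0 : (0 : ℝ) < 8 * ((Fintype.card V : ℝ) + 1) := by positivity
  let p : V → ℕ → Prop := fun v j => δ v ≤ C₀ * H ^ (-(j : ℝ) / (8 * ((Fintype.card V : ℝ) + 1)))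
  have hp0 : ∀ v, p v 0 := by
    intro v
    simp only [p, Nat.cast_zero, neg_zero, zero_div, Real.rpow_zero, mul_one]
    exact hδ v
  let g : V → ℕ := fun v => Nat.findGreatest (p v) J
  have hg : ∀ v, p v (g v) := fun v => Nat.findGreatest_spec (Nat.zero_le J) (hp0 v)
  have hgJ : ∀ v, g v ≤ J := fun v => Nat.findGreatest_le J
  refine ⟨fun v => ⟨g v, Nat.lt_succ_of_le (hgJ v)⟩, ?_, fun v => hg v⟩
  by_contra hlt
  push Not at hlt
  simp only at hlt
  have hgt : ∀ v, C₀ * H ^ (-((g v : ℝ) + 1) / (8 * ((Fintype.card V : ℝ) + 1))) < δ v := by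
    intro v
    have hv : g v < J :=
      lt_of_le_of_lt (single_le_sum (f := fun v => g v) (fun v _ => Nat.zero_le _) (mem_univ v)) hlt
    have h1 : ¬ p v (g v + 1) := Nat.findGreatest_is_greatest (Nat.lt_succ_self _) hv
    simp only [p, not_le] at h1
    push_cast at h1
    exact h1
  have hgt' : ∀ v, H ^ (-((g v : ℝ) + 1) / (8 * ((Fintype.card V : ℝ) + 1))) ≤ δ v := by
    intro v
    refine le_trans ?_ (hgt v).le
    have h1 : 0 ≤ H ^ (-((g v : ℝ) + 1) / (8 * ((Fintype.card V : ℝ) + 1))) := by positivity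
    nlinarith
  have h1 : ∏ v, H ^ (-((g v : ℝ) + 1) / (8 * ((Fintype.card V : ℝ) + 1))) ≤ ∏ v, δ v :=
    prod_le_prod (fun v _ => by positivity) fun v _ => hgt' v
  rw [← Real.rpow_sum_of_pos hH0] at h1
  have h2 : (H ^ (d : ℝ)) * H ^ (∑ v, -((g v : ℝ) + 1) / (8 * ((Fintype.card V : ℝ) + 1)))
      ≤ H ^ (1 / 4 : ℝ) := by
    have h3 : H ^ d * H ^ (∑ v, -((g v : ℝ) + 1) / (8 * ((Fintype.card V : ℝ) + 1))) ≤ C₂ :=
      (mul_le_mul_of_nonneg_left h1 (by positivity)).trans hprod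
    rw [Real.rpow_natCast]
    refine h3.trans ?_
    have h4 : 0 ≤ C₂ := le_trans (by positivity) h3
    calc C₂ = (C₂ ^ 4) ^ (1 / 4 : ℝ) := by
          rw [← Real.rpow_natCast, ← Real.rpow_mul h4]
          norm_num
      _ ≤ H ^ (1 / 4 : ℝ) := Real.rpow_le_rpow (by positivity) hC₂H (by norm_num)
  rw [← Real.rpow_add hH0] at h2
  have h3 : (d : ℝ) + ∑ v, -((g v : ℝ) + 1) / (8 * ((Fintype.card V : ℝ) + 1)) ≤ 1 / 4 :=
    (Real.rpow_le_rpow_left_iff (by linarith)).mp h2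
  have h4 : ∑ v, -((g v : ℝ) + 1) / (8 * ((Fintype.card V : ℝ) + 1))
      = -((∑ v, g v : ℕ) + (Fintype.card V : ℝ)) / (8 * ((Fintype.card V : ℝ) + 1)) := by
    rw [← sum_div]
    congr 1
    rw [sum_neg_distrib, sum_add_distrib, sum_const, card_univ, nsmul_eq_mul, mul_one]
    push_cast
    ring
  rw [h4] at h3
  have h5 : ((∑ v, g v : ℕ) : ℝ) + 1 ≤ (J : ℝ) := by exact_mod_cast hlt
  have h6 : (J : ℝ) = (4 * d + 9) * ((Fintype.card V : ℝ) + 1) := by
    rw [hJ, hκ]; push_cast; ring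
  have h7 : (d : ℝ) - 1 / 4 ≤ ((∑ v, g v : ℕ) + (Fintype.card V : ℝ))
      / (8 * ((Fintype.card V : ℝ) + 1)) := by
    have : -((∑ v, g v : ℕ) + (Fintype.card V : ℝ)) / (8 * ((Fintype.card V : ℝ) + 1))
        = -(((∑ v, g v : ℕ) + (Fintype.card V : ℝ)) / (8 * ((Fintype.card V : ℝ) + 1))) := by
      ring
    rw [this] at h3
    linarith
  rw [le_div_iff₀ hκ0] at h7
  have hd' : (3 : ℝ) ≤ d := by exact_mod_cast hd
  have hV0 : (0 : ℝ) ≤ (Fintype.card V : ℝ) := Nat.cast_nonneg _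
  nlinarith

/-- The case of a monic polynomial. -/
theorem thueMahler_monic {f : ℤ[X]} (hf : f.Monic)
    (hsep : (f.map (Int.castRingHom ℚ)).Separable) (hd : 3 ≤ f.natDegree) {S : Finset ℕ}
    (hS : ∀ p ∈ S, p.Prime) :
    {P : ℤ × ℤ | IsCoprime P.1 P.2 ∧ IsSUnit S (form f f.natDegree P.1 P.2)}.Finite := by
  classical
  set V := Option {p // p ∈ S} with hV
  let pl : V → Pl := plS S hS
  -- the polynomial at the places
  let F : ∀ v : V, (pl v).K[X] := fun v => f.map (Int.castRingHom (pl v).K)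
  have hFm : ∀ v, (F v).Monic := fun v => hf.map _
  have hFdeg : ∀ v, (F v).natDegree = f.natDegree := fun v =>
    natDegree_map_eq_of_injective Int.cast_injective f
  have hFsep : ∀ v, (F v).Separable := by
    intro v
    have h2 : F v = (f.map (Int.castRingHom ℚ)).map (algebraMap ℚ (pl v).K) := by
      simp only [F]
      rw [Polynomial.map_map]
      congr 1
      exact Subsingleton.elim _ _
    rw [h2]
    exact hsep.map
  have hnear : ∀ v, ∃ c : ℝ, 0 < c ∧ ∀ x y : (pl v).K, y ≠ 0 → ∃ z ∈ (F v).roots,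
      c * max ‖x‖ ‖y‖ ^ ((F v).natDegree - 1) * ‖x - z * y‖
        ≤ ‖y ^ (F v).natDegree * (F v).eval (x / y)‖ := by
    intro v
    have := isAlgClosed_plS S hS v
    exact exists_root_near (hFm v) (hFsep v) (by rw [hFdeg]; omega)
  choose c hc0 hc using hnear
  -- constants
  set R : ℝ := ∑ v, ∑ z ∈ (F v).roots.toFinset, ‖z‖ with hR
  have hRz : ∀ v, ∀ z ∈ (F v).roots, ‖z‖ ≤ R := by
    intro v z hz
    have h1 : ‖z‖ ≤ ∑ z ∈ (F v).roots.toFinset, ‖z‖ :=
      single_le_sum (f := fun z => ‖z‖) (fun z _ => norm_nonneg _) (Multiset.mem_toFinset.mpr hz)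
    have h2 : ∑ z ∈ (F v).roots.toFinset, ‖z‖ ≤ R :=
      single_le_sum (f := fun v => ∑ z ∈ (F v).roots.toFinset, ‖z‖)
        (fun v _ => sum_nonneg fun z _ => norm_nonneg _) (mem_univ v)
    exact h1.trans h2
  have hR0 : 0 ≤ R := sum_nonneg fun v _ => sum_nonneg fun z _ => norm_nonneg _
  set C₀ : ℝ := 1 + R with hC₀
  have hC₀1 : 1 ≤ C₀ := by linarith
  set c' : ℝ := ∏ v, c v with hc'
  have hc'0 : 0 < c' := prod_pos fun v _ => hc0 v
  set C₂ : ℝ := 1 / c' with hC₂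
  set J : ℕ := (4 * f.natDegree + 9) * (Fintype.card V + 1) with hJ
  obtain ⟨N, hN⟩ := exists_nat_ge (max 2 (C₂ ^ 4))
  -- the finite union
  have hfin : (⋃ z : (∀ v : V, {z // z ∈ (F v).roots.toFinset}), ⋃ j : V → Fin (J + 1),
      {P : ℤ × ℤ | J ≤ ∑ v, (j v : ℕ) ∧ (IsCoprime P.1 P.2 ∧ P.2 ≠ 0 ∧
      ∀ v, ‖(P.1 : (pl v).K) - (z v : (pl v).K) * P.2‖
        ≤ C₀ * (hh P : ℝ) ^ (-(((j v : ℕ) : ℝ) / (8 * (Fintype.card V + 1))))
          * max ‖(P.1 : (pl v).K)‖ ‖(P.2 : (pl v).K)‖)}).Finite := by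
    refine Set.finite_iUnion fun z => Set.finite_iUnion fun j => ?_
    by_cases hj : J ≤ ∑ v, (j v : ℕ)
    · have hκ0 : (0 : ℝ) < 8 * ((Fintype.card V : ℝ) + 1) := by positivity
      have h := core hf hsep hd pl (fun v => (z v : (pl v).K)) (fun v => by
          have h1 := (z v).2
          rw [Multiset.mem_toFinset, mem_roots (hFm v).ne_zero, IsRoot, eval_map] at h1
          exact h1)
        (one_le_prod S hS) (prod_max_le S hS)
        (fun v => ((j v : ℕ) : ℝ) / (8 * (Fintype.card V + 1))) (fun v => by positivity)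
        (μ := (f.natDegree : ℝ) / 2 + 1 + 1 / 8) (by linarith) (by
          rw [← sum_div, le_div_iff₀ hκ0]
          have h1 : (J : ℝ) ≤ ∑ v, ((j v : ℕ) : ℝ) := by exact_mod_cast hj
          refine le_trans (le_of_eq ?_) h1
          rw [hJ]
          push_cast
          ring) hC₀1
      exact h.subset fun P hP => hP.2
    · refine Set.Finite.subset Set.finite_empty fun P hP => ?_
      exact absurd hP.1 hj
  have hfin0 : {P : ℤ × ℤ | IsCoprime P.1 P.2 ∧ P.2 = 0}.Finite := by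
    refine ((Set.finite_Icc (-1 : ℤ) 1).prod (Set.finite_singleton (0 : ℤ))).subset ?_
    rintro ⟨x, y⟩ ⟨h1, h2⟩
    simp only at h1 h2
    rw [h2, isCoprime_zero_right] at h1
    refine ⟨?_, h2⟩
    have := Int.isUnit_iff.mp h1
    constructor <;> simp only <;> omega
  refine (((finite_hh_le N).union hfin0).union hfin).subset ?_
  rintro P ⟨hcop, hunit⟩
  by_cases hPN : hh P ≤ N
  · exact Or.inl (Or.inl hPN)
  by_cases hP2 : P.2 = 0
  · exact Or.inl (Or.inr ⟨hcop, hP2⟩)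
  right
  set H : ℝ := ((hh P : ℕ) : ℝ) with hH
  have hNH : (N : ℝ) ≤ H := by
    rw [hH]
    exact_mod_cast (not_le.mp hPN).le
  have hH2 : 2 ≤ H := (le_max_left _ _).trans (hN.trans hNH)
  have hC₂H : C₂ ^ 4 ≤ H := (le_max_right _ _).trans (hN.trans hNH)
  have hP2v : ∀ v, ((P.2 : ℤ) : (pl v).K) ≠ 0 := fun v => by exact_mod_cast hP2
  choose z hz hzc using fun v => hc v (P.1 : (pl v).K) (P.2 : (pl v).K) (hP2v v)
  set M : V → ℝ := fun v => max ‖(P.1 : (pl v).K)‖ ‖(P.2 : (pl v).K)‖ with hM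
  have hM0 : ∀ v, 0 < M v := fun v =>
    lt_of_lt_of_le (norm_pos_iff.mpr (hP2v v)) (le_max_right _ _)
  -- the value of the form
  have hval : ∀ v, (P.2 : (pl v).K) ^ (F v).natDegree
      * (F v).eval ((P.1 : (pl v).K) / (P.2 : (pl v).K))
      = ((form f f.natDegree P.1 P.2 : ℤ) : (pl v).K) := by
    intro v
    have e0 : (F v).eval ((P.1 : (pl v).K) / (P.2 : (pl v).K))
        = aeval ((P.1 : (pl v).K) / (P.2 : (pl v).K)) f := by
      change (f.map (Int.castRingHom (pl v).K)).eval _ = _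
      rw [eval_map, aeval_def]
      rfl
    rw [hFdeg, e0, aeval_eq_sum_range, mul_sum, form]
    push_cast
    refine sum_congr rfl fun i hi => ?_
    rw [mem_range] at hi
    have h1 : (P.2 : (pl v).K) ^ f.natDegree
        = (P.2 : (pl v).K) ^ (f.natDegree - i) * (P.2 : (pl v).K) ^ i := by
      rw [← pow_add]
      congr 1
      omega
    have h2 := hP2v v
    rw [h1, zsmul_eq_mul, div_pow]
    field_simp
  have hform0 : ∀ v, ((form f f.natDegree P.1 P.2 : ℤ) : (pl v).K) ≠ 0 := fun v => by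
    exact_mod_cast hunit.1
  set δ : V → ℝ := fun v => ‖(P.1 : (pl v).K) - z v * P.2‖ / M v with hδ
  have hδ0 : ∀ v, 0 < δ v := by
    intro v
    refine div_pos (norm_pos_iff.mpr ?_) (hM0 v)
    intro h0
    apply hform0 v
    rw [← hval v]
    have h1 : (P.1 : (pl v).K) / (P.2 : (pl v).K) = z v := by
      rw [div_eq_iff (hP2v v)]
      exact sub_eq_zero.mp h0
    rw [h1]
    have h2 := (mem_roots (hFm v).ne_zero).mp (hz v)
    rw [IsRoot] at h2
    rw [h2, mul_zero]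
  have hδC : ∀ v, δ v ≤ C₀ := by
    intro v
    rw [hδ]
    simp only
    rw [div_le_iff₀ (hM0 v)]
    calc ‖(P.1 : (pl v).K) - z v * P.2‖ ≤ ‖(P.1 : (pl v).K)‖ + ‖z v * P.2‖ := norm_sub_le _ _
      _ ≤ M v + R * M v := by
          rw [norm_mul]
          refine add_le_add (le_max_left _ _) ?_
          exact mul_le_mul (hRz v _ (hz v)) (le_max_right _ _) (norm_nonneg _) hR0
      _ = C₀ * M v := by rw [hC₀]; ring
  have hprod : H ^ f.natDegree * ∏ v, δ v ≤ C₂ := by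
    have h1 : ∀ v, c v * M v ^ f.natDegree * δ v
        ≤ ‖((form f f.natDegree P.1 P.2 : ℤ) : (pl v).K)‖ := by
      intro v
      have h2 := hzc v
      rw [hval v, hFdeg] at h2
      refine le_trans (le_of_eq ?_) h2
      have h3 : M v ^ f.natDegree = M v ^ (f.natDegree - 1) * M v := by
        rw [← pow_succ]
        congr 1
        omega
      have h4 := (hM0 v).ne'
      have h5 : ∀ a b m r : ℝ, m ≠ 0 → a * (b * m) * (r / m) = a * b * r := by
        intro a b m r hm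
        field_simp
      simp only [hδ]
      rw [h3]
      exact h5 _ _ _ _ h4
    have h2 : ∏ v, (c v * M v ^ f.natDegree * δ v) ≤ 1 := by
      rw [← prod_eq_one S hS hunit]
      exact prod_le_prod (fun v _ => by
        have := hc0 v; have := hδ0 v; have := hM0 v; positivity) fun v _ => h1 v
    rw [prod_mul_distrib, prod_mul_distrib, prod_pow] at h2
    have h3 : ∏ v, M v = H := prod_max S hS hcop
    rw [h3] at h2
    rw [hC₂, le_div_iff₀ hc'0]
    calc H ^ f.natDegree * (∏ v, δ v) * c' = c' * H ^ f.natDegree * ∏ v, δ v := by ring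
      _ ≤ 1 := h2
  obtain ⟨j, hj1, hj2⟩ := exists_weights hd hC₀1 hH2 hC₂H δ hδC hprod
  rw [Set.mem_iUnion]
  refine ⟨fun v => ⟨z v, Multiset.mem_toFinset.mpr (hz v)⟩, ?_⟩
  rw [Set.mem_iUnion]
  refine ⟨j, hj1, hcop, hP2, fun v => ?_⟩
  have h5 := hj2 v
  have h6 : ‖(P.1 : (pl v).K) - z v * P.2‖ = δ v * M v := by
    simp only [hδ]
    rw [div_mul_cancel₀ _ (hM0 v).ne']
  rw [h6, ← neg_div]
  exact mul_le_mul_of_nonneg_right h5 (hM0 v).le

end Fermat.Agent.Cor.Mahl
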