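import Fermat.Agent.Corollaries.Mahl.Core

/-!
# The places and the nearest roots
-/

open Polynomial Finset

namespace Fermat.Agent.Cor.Mahl

open Fermat.Agent.Cor.Thue

/-- The archimedean place and the `p`-adic places for `p ∈ S`. -/
noncomputable def plS (S : Finset ℕ) (hS : ∀ p ∈ S, p.Prime) : Option {p // p ∈ S} → Pl
  | none => ⟨ℂ, inferInstance, inferInstance⟩
  | some p =>
    haveI : Fact p.1.Prime := ⟨hS p.1 p.2⟩
    ⟨PadicAlgCl p.1, inferInstance, inferInstance⟩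

theorem isAlgClosed_plS (S : Finset ℕ) (hS : ∀ p ∈ S, p.Prime) (v) :
    IsAlgClosed (plS S hS v).K := by
  rcases v with _ | p
  · exact inferInstanceAs (IsAlgClosed ℂ)
  · have : Fact p.1.Prime := ⟨hS p.1 p.2⟩
    exact inferInstanceAs (IsAlgClosed (PadicAlgCl p.1))

theorem norm_none (S : Finset ℕ) (hS : ∀ p ∈ S, p.Prime) (N : ℤ) :
    ‖(N : (plS S hS none).K)‖ = |(N : ℝ)| := by
  change ‖((N : ℤ) : ℂ)‖ = |(N : ℝ)|
  exact Complex.norm_intCast N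

theorem norm_some (S : Finset ℕ) (hS : ∀ p ∈ S, p.Prime) (p : {p // p ∈ S}) (N : ℤ) :
    haveI : Fact p.1.Prime := ⟨hS p.1 p.2⟩
    ‖(N : (plS S hS (some p)).K)‖ = ‖(N : ℚ_[p.1])‖ := by
  have : Fact p.1.Prime := ⟨hS p.1 p.2⟩
  change ‖((N : ℤ) : PadicAlgCl p.1)‖ = ‖(N : ℚ_[p.1])‖
  have h := PadicAlgCl.norm_extends p.1 (N : ℚ_[p.1])
  rw [← h, map_intCast]

theorem norm_some_eq (S : Finset ℕ) (hS : ∀ p ∈ S, p.Prime) (p : {p // p ∈ S}) {N : ℤ}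
    (hN : N ≠ 0) :
    ‖(N : (plS S hS (some p)).K)‖ = ((p.1 : ℝ) ^ (N.natAbs.factorization p.1))⁻¹ := by
  have : Fact p.1.Prime := ⟨hS p.1 p.2⟩
  rw [norm_some]
  have h1 : ((N : ℤ) : ℚ_[p.1]) = (((N : ℤ) : ℚ) : ℚ_[p.1]) := by push_cast; rfl
  have hN' : ((N : ℤ) : ℚ) ≠ 0 := by exact_mod_cast hN
  rw [h1, Padic.eq_padicNorm, padicNorm.eq_zpow_of_nonzero hN', padicValRat.of_int,
    padicValInt, Nat.factorization_def _ (hS p.1 p.2), zpow_neg, zpow_natCast]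
  push_cast
  rfl

theorem prod_norm (S : Finset ℕ) (hS : ∀ p ∈ S, p.Prime) {N : ℤ} (hN : N ≠ 0) :
    ∏ v, ‖(N : (plS S hS v).K)‖
      = (N.natAbs : ℝ) / ((∏ p ∈ S, p ^ (N.natAbs.factorization p) : ℕ) : ℝ) := by
  rw [Fintype.prod_option, norm_none]
  have h1 : ∏ p : {p // p ∈ S}, ‖(N : (plS S hS (some p)).K)‖
      = ∏ p : {p // p ∈ S}, ((p.1 : ℝ) ^ (N.natAbs.factorization p.1))⁻¹ :=
    prod_congr rfl fun p _ => norm_some_eq S hS p hN
  rw [h1, prod_inv_distrib, div_eq_mul_inv]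
  congr 1
  · rw [Nat.cast_natAbs, Int.cast_abs]
  · congr 1
    rw [← prod_coe_sort S (fun p => p ^ (N.natAbs.factorization p))]
    push_cast
    rfl

theorem prod_dvd (S : Finset ℕ) {N : ℕ} (hN : N ≠ 0) :
    (∏ p ∈ S, p ^ (N.factorization p)) ∣ N := by
  classical
  conv_rhs => rw [← Nat.prod_factorization_pow_eq_self hN]
  have h1 : ∏ p ∈ S, p ^ (N.factorization p)
      = ∏ p ∈ S.filter (fun p => p ∈ N.factorization.support), p ^ (N.factorization p) := by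
    rw [prod_filter]
    refine prod_congr rfl fun p _ => ?_
    split_ifs with h
    · rfl
    · rw [Finsupp.notMem_support_iff.mp h, pow_zero]
  rw [h1]
  exact prod_dvd_prod_of_subset _ _ _ (fun p hp => (mem_filter.mp hp).2)

theorem one_le_prod (S : Finset ℕ) (hS : ∀ p ∈ S, p.Prime) (N : ℤ) (hN : N ≠ 0) :
    1 ≤ ∏ v, ‖(N : (plS S hS v).K)‖ := by
  rw [prod_norm S hS hN]
  have hN' : N.natAbs ≠ 0 := Int.natAbs_ne_zero.mpr hN
  have hpos : 0 < ∏ p ∈ S, p ^ (N.natAbs.factorization p) :=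
    prod_pos fun p hp => pow_pos (hS p hp).pos _
  rw [one_le_div (by exact_mod_cast hpos)]
  exact_mod_cast Nat.le_of_dvd (Nat.pos_of_ne_zero hN') (prod_dvd S hN')

theorem prod_eq_one (S : Finset ℕ) (hS : ∀ p ∈ S, p.Prime) {N : ℤ} (hN : IsSUnit S N) :
    ∏ v, ‖(N : (plS S hS v).K)‖ = 1 := by
  rw [prod_norm S hS hN.1]
  have hN' : N.natAbs ≠ 0 := Int.natAbs_ne_zero.mpr hN.1
  have hprod : N.natAbs = ∏ p ∈ S, p ^ N.natAbs.factorization p := by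
    conv_lhs => rw [← Nat.prod_factorization_pow_eq_self hN']
    refine Finsupp.prod_of_support_subset _ ?_ _ (fun p _ => pow_zero p)
    intro p hp
    rw [Nat.support_factorization, Nat.mem_primeFactors] at hp
    exact hN.2 p hp.1 (Int.natCast_dvd.mpr hp.2.1)
  rw [← hprod]
  exact div_self (by exact_mod_cast hN')

theorem norm_some_le (S : Finset ℕ) (hS : ∀ p ∈ S, p.Prime) (p : {p // p ∈ S}) (N : ℤ) :
    ‖(N : (plS S hS (some p)).K)‖ ≤ 1 := by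
  have : Fact p.1.Prime := ⟨hS p.1 p.2⟩
  rw [norm_some]
  exact Padic.norm_int_le_one N

theorem max_none (S : Finset ℕ) (hS : ∀ p ∈ S, p.Prime) (P : ℤ × ℤ) :
    max ‖(P.1 : (plS S hS none).K)‖ ‖(P.2 : (plS S hS none).K)‖ = hh P := by
  rw [norm_none, norm_none, cast_hh]

theorem prod_max_le (S : Finset ℕ) (hS : ∀ p ∈ S, p.Prime) (P : ℤ × ℤ) :
    ∏ v, max ‖(P.1 : (plS S hS v).K)‖ ‖(P.2 : (plS S hS v).K)‖ ≤ hh P := by
  rw [Fintype.prod_option, max_none]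
  have h1 : ∏ p : {p // p ∈ S}, max ‖(P.1 : (plS S hS (some p)).K)‖
      ‖(P.2 : (plS S hS (some p)).K)‖ ≤ 1 :=
    prod_le_one (fun p _ => (norm_nonneg _).trans (le_max_left _ _))
      fun p _ => max_le (norm_some_le S hS p _) (norm_some_le S hS p _)
  calc _ ≤ (hh P : ℝ) * 1 := mul_le_mul_of_nonneg_left h1 (Nat.cast_nonneg _)
    _ = hh P := mul_one _

theorem max_some (S : Finset ℕ) (hS : ∀ p ∈ S, p.Prime) (p : {p // p ∈ S}) {P : ℤ × ℤ}
    (hP : IsCoprime P.1 P.2) :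
    max ‖(P.1 : (plS S hS (some p)).K)‖ ‖(P.2 : (plS S hS (some p)).K)‖ = 1 := by
  have : Fact p.1.Prime := ⟨hS p.1 p.2⟩
  refine le_antisymm (max_le (norm_some_le S hS p _) (norm_some_le S hS p _)) ?_
  by_contra hlt
  rw [not_le, max_lt_iff, norm_some, norm_some, Padic.norm_intCast_lt_one_iff,
    Padic.norm_intCast_lt_one_iff] at hlt
  have hu := hP.isUnit_of_dvd' hlt.1 hlt.2
  have h1 : ((p.1 : ℕ) : ℤ).natAbs = 1 := Int.isUnit_iff_natAbs_eq.mp hu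
  have h2 := (hS p.1 p.2).one_lt
  simp at h1
  omega

theorem prod_max (S : Finset ℕ) (hS : ∀ p ∈ S, p.Prime) {P : ℤ × ℤ} (hP : IsCoprime P.1 P.2) :
    ∏ v, max ‖(P.1 : (plS S hS v).K)‖ ‖(P.2 : (plS S hS v).K)‖ = hh P := by
  rw [Fintype.prod_option, max_none]
  have h1 : ∏ p : {p // p ∈ S}, max ‖(P.1 : (plS S hS (some p)).K)‖
      ‖(P.2 : (plS S hS (some p)).K)‖ = 1 :=
    prod_eq_one' (fun p => max_some S hS p hP)
  rw [h1, mul_one]
where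
  prod_eq_one' {ι : Type} [Fintype ι] {g : ι → ℝ} (h : ∀ i, g i = 1) : ∏ i, g i = 1 :=
    Finset.prod_eq_one fun i _ => h i

/-- The distance to the nearest root, homogeneous form. -/
theorem exists_root_near {K : Type} [NormedField K] [IsAlgClosed K] {f : K[X]} (hm : f.Monic)
    (hf : f.Separable) (hd : 1 ≤ f.natDegree) :
    ∃ c : ℝ, 0 < c ∧ ∀ x y : K, y ≠ 0 → ∃ z ∈ f.roots,
      c * max ‖x‖ ‖y‖ ^ (f.natDegree - 1) * ‖x - z * y‖ ≤ ‖y ^ f.natDegree * f.eval (x / y)‖ := by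
  classical
  have hf0 : f ≠ 0 := hf.ne_zero
  have hnd : f.roots.Nodup := nodup_roots hf
  set Z : Finset K := ⟨f.roots, hnd⟩ with hZ
  have hcard : Z.card = f.natDegree := by
    change Multiset.card f.roots = f.natDegree
    exact (IsAlgClosed.splits f).natDegree_eq_card_roots.symm
  have hval : ∀ x y : K, y ≠ 0 → ‖y ^ f.natDegree * f.eval (x / y)‖ = ∏ z ∈ Z, ‖x - z * y‖ := by
    intro x y hy
    rw [(IsAlgClosed.splits f).eval_eq_prod_roots_of_monic hm]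
    have h1 : (f.roots.map ((x / y) - ·)).prod = ∏ z ∈ Z, (x / y - z) := rfl
    rw [h1, ← hcard, ← prod_const, ← prod_mul_distrib, norm_prod]
    refine prod_congr rfl fun z _ => ?_
    congr 1
    field_simp
  obtain ⟨δ, hδ0, hδ⟩ : ∃ δ : ℝ, 0 < δ ∧ ∀ z ∈ Z, ∀ w ∈ Z, z ≠ w → δ ≤ ‖z - w‖ := by
    rcases Z.offDiag.eq_empty_or_nonempty with h | h
    · refine ⟨1, one_pos, fun z hz w hw hzw => ?_⟩
      have : (z, w) ∈ Z.offDiag := mem_offDiag.mpr ⟨hz, hw, hzw⟩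
      rw [h] at this
      simp at this
    · obtain ⟨p, hp, hpm⟩ := exists_min_image Z.offDiag (fun p => ‖p.1 - p.2‖) h
      refine ⟨‖p.1 - p.2‖, norm_pos_iff.mpr (sub_ne_zero.mpr (mem_offDiag.mp hp).2.2),
        fun z hz w hw hzw => hpm (z, w) (mem_offDiag.mpr ⟨hz, hw, hzw⟩)⟩
  set R : ℝ := ∑ z ∈ Z, ‖z‖ with hR
  have hR0 : 0 ≤ R := sum_nonneg fun z _ => norm_nonneg _
  have hRz : ∀ z ∈ Z, ‖z‖ ≤ R := fun z hz =>
    single_le_sum (f := fun z => ‖z‖) (fun z _ => norm_nonneg _) hz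
  set C : ℝ := 1 + 2 * (1 + R) / δ with hC
  have hC0 : 0 < C := by positivity
  refine ⟨(C⁻¹) ^ (f.natDegree - 1), by positivity, fun x y hy => ?_⟩
  have hne : Z.Nonempty := by
    rw [← Finset.card_pos, hcard]
    omega
  obtain ⟨z₀, hz₀, hmin⟩ := exists_min_image Z (fun z => ‖x - z * y‖) hne
  refine ⟨z₀, hz₀, ?_⟩
  rw [hval x y hy, ← mul_prod_erase Z (fun z => ‖x - z * y‖) hz₀]
  have hfar : ∀ z ∈ Z.erase z₀, C⁻¹ * max ‖x‖ ‖y‖ ≤ ‖x - z * y‖ := by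
    intro z hz
    have h2 := hmin z (mem_of_mem_erase hz)
    have h3 := hδ z (mem_of_mem_erase hz) z₀ hz₀ (ne_of_mem_erase hz)
    have h4 : δ * ‖y‖ ≤ 2 * ‖x - z * y‖ := by
      calc δ * ‖y‖ ≤ ‖z - z₀‖ * ‖y‖ := mul_le_mul_of_nonneg_right h3 (norm_nonneg _)
        _ = ‖(x - z₀ * y) - (x - z * y)‖ := by rw [← norm_mul]; congr 1; ring
        _ ≤ ‖x - z₀ * y‖ + ‖x - z * y‖ := norm_sub_le _ _
        _ ≤ 2 * ‖x - z * y‖ := by linarith
    have h5 : ‖y‖ ≤ 2 / δ * ‖x - z * y‖ := by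
      rw [div_mul_eq_mul_div, le_div_iff₀ hδ0]
      linarith
    have h6 : ‖x‖ ≤ ‖x - z * y‖ + R * ‖y‖ := by
      calc ‖x‖ = ‖(x - z * y) + z * y‖ := by congr 1; ring
        _ ≤ ‖x - z * y‖ + ‖z * y‖ := norm_add_le _ _
        _ ≤ ‖x - z * y‖ + R * ‖y‖ := by
            rw [norm_mul]
            have := mul_le_mul_of_nonneg_right (hRz z (mem_of_mem_erase hz)) (norm_nonneg y)
            linarith
    rw [inv_mul_le_iff₀ hC0]
    have hn := norm_nonneg (x - z * y)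
    have h7 : R * ‖y‖ ≤ R * (2 / δ * ‖x - z * y‖) := mul_le_mul_of_nonneg_left h5 hR0
    have h8 : C * ‖x - z * y‖ = ‖x - z * y‖ + 2 / δ * ‖x - z * y‖
        + R * (2 / δ * ‖x - z * y‖) := by rw [hC]; ring
    have h9 : 0 ≤ 2 / δ * ‖x - z * y‖ := by positivity
    have h10 : 0 ≤ R * (2 / δ * ‖x - z * y‖) := by positivity
    refine max_le ?_ ?_
    · rw [h8]; linarith
    · rw [h8]; linarith
  have h1 : (C⁻¹ * max ‖x‖ ‖y‖) ^ (f.natDegree - 1) ≤ ∏ z ∈ Z.erase z₀, ‖x - z * y‖ := by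
    have h2 : f.natDegree - 1 = (Z.erase z₀).card := by rw [card_erase_of_mem hz₀, hcard]
    rw [h2, ← prod_const]
    exact prod_le_prod (fun _ _ => by positivity) hfar
  calc (C⁻¹) ^ (f.natDegree - 1) * max ‖x‖ ‖y‖ ^ (f.natDegree - 1) * ‖x - z₀ * y‖
      = ‖x - z₀ * y‖ * (C⁻¹ * max ‖x‖ ‖y‖) ^ (f.natDegree - 1) := by rw [mul_pow]; ring
    _ ≤ _ := mul_le_mul_of_nonneg_left h1 (norm_nonneg _)

end Fermat.Agent.Cor.Mahl
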