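import Fermat.Agent.Corollaries.Mahl.SUnit
import Fermat.Agent.Corollaries.Sieg.Main

/-!
# S-integral points on elliptic curves over `ℚ`
-/

open Polynomial Finset WeierstrassCurve

namespace Fermat.Agent.Cor.Mahl

open Fermat.Agent.Cor.Thue Fermat.Agent.Cor.Sieg

/-- All the prime factors of the denominator are in `S`. -/
def IsSInt (S : Finset ℕ) (x : ℚ) : Prop := ∀ p : ℕ, p.Prime → p ∣ x.den → p ∈ S

theorem IsSUnit.mono {S T : Finset ℕ} (h : S ⊆ T) {m : ℤ} (hm : IsSUnit S m) : IsSUnit T m :=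
  ⟨hm.1, fun p hp hpm => h (hm.2 p hp hpm)⟩

theorem IsSUnit.pow {S : Finset ℕ} {x : ℤ} (hx : IsSUnit S x) (k : ℕ) : IsSUnit S (x ^ k) :=
  ⟨pow_ne_zero _ hx.1, fun p hp h =>
    hx.2 p hp ((Nat.prime_iff_prime_int.mp hp).dvd_of_dvd_pow h)⟩

theorem isSUnit_primeFactors {m : ℤ} (hm : m ≠ 0) : IsSUnit m.natAbs.primeFactors m :=
  ⟨hm, fun p hp h => by
    rw [Nat.mem_primeFactors]
    exact ⟨hp, Int.natCast_dvd.mp h, Int.natAbs_ne_zero.mpr hm⟩⟩

/-- Pairs with an S-unit value. -/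
theorem finite_form_S {F : ℤ[X]} (hsq : Squarefree (F.map (Int.castRingHom ℚ))) {n : ℕ}
    (hn : 3 ≤ F.natDegree) (h : F.natDegree ≤ n) (h' : n ≤ F.natDegree + 1) {S : Finset ℕ}
    (hS : ∀ p ∈ S, p.Prime) :
    {P : ℤ × ℤ | IsCoprime P.1 P.2 ∧ IsSUnit S (form F n P.1 P.2)}.Finite := by
  rcases Nat.lt_or_ge F.natDegree n with h1 | h1
  · obtain rfl : n = F.natDegree + 1 := by omega
    refine (thueMahler F hsq hn S hS).subset ?_
    rintro P ⟨h2, h3⟩
    rw [form_succ] at h3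
    exact ⟨h2, h3.of_dvd (Dvd.intro_left _ rfl)⟩
  · obtain rfl : n = F.natDegree := by omega
    exact thueMahler F hsq hn S hS

/-- **S-integral values of a rational function**: the case of integral polynomials. -/
theorem finite_values_S {N g : ℤ[X]} {n : ℕ} (hn : 3 ≤ g.natDegree)
    (hsq : Squarefree (g.map (Int.castRingHom ℚ)))
    (hcop : IsCoprime (N.map (Int.castRingHom ℚ)) (g.map (Int.castRingHom ℚ)))
    (hN : N.natDegree ≤ n) (hg : g.natDegree ≤ n) (hgn : n ≤ g.natDegree + 1)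
    (hlead : N.coeff n ≠ 0 ∨ g.coeff n ≠ 0) {S : Finset ℕ} (hS : ∀ p ∈ S, p.Prime) :
    {t : ℚ | aeval t g ≠ 0 ∧ ∃ m : ℚ, IsSInt S m ∧ aeval t N = m * aeval t g}.Finite := by
  classical
  -- Bezout over `ℤ`
  obtain ⟨U, V, r, hr, hUV⟩ : ∃ U V : ℤ[X], ∃ r : ℤ, r ≠ 0 ∧ U * N + V * g = C r := by
    obtain ⟨a, b, hab⟩ := hcop
    obtain ⟨D₁, hD₁, A, hA⟩ := exists_clear a
    obtain ⟨D₂, hD₂, B, hB⟩ := exists_clear b
    refine ⟨C D₂ * A, C D₁ * B, D₁ * D₂, mul_ne_zero hD₁ hD₂, ?_⟩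
    apply map_injective (Int.castRingHom ℚ) Int.cast_injective
    have hC : ∀ z : ℤ, (C z : ℤ[X]).map (Int.castRingHom ℚ) = C (z : ℚ) := fun z => by
      rw [map_C]; rfl
    rw [Polynomial.map_add, Polynomial.map_mul, Polynomial.map_mul, Polynomial.map_mul,
      Polynomial.map_mul, hC, hC, hC, hA, hB, Int.cast_mul, C_mul]
    linear_combination (C (D₁ : ℚ) * C (D₂ : ℚ)) * hab
  have key : ∀ (F : ℤ[X]) (x y d b : ℤ), IsCoprime x y → d ∣ b * form F n x y → d ∣ y →
      d ∣ b * F.coeff n := by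
    intro F x y d b hxy h1 h2
    have h3 : d ∣ (b * F.coeff n) * x ^ n := by
      have h4 : d ∣ b * (form F n x y - F.coeff n * x ^ n) :=
        Dvd.dvd.mul_left (h2.trans (form_modEq F n x y)) b
      have h5 := dvd_sub h1 h4
      have h6 : b * form F n x y - b * (form F n x y - F.coeff n * x ^ n)
          = (b * F.coeff n) * x ^ n := by ring
      rwa [h6] at h5
    have h6 : IsCoprime d (x ^ n) := ((hxy.of_isCoprime_of_dvd_right h2).symm).pow_right
    exact h6.dvd_of_dvd_mul_right h3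
  obtain ⟨c, hc0, hc⟩ : ∃ c : ℤ, c ≠ 0 ∧ ∀ x y d b : ℤ, IsCoprime x y → d ∣ b * form N n x y →
      d ∣ form g n x y → d ∣ y → d ∣ b * c := by
    rcases hlead with h | h
    · exact ⟨N.coeff n, h, fun x y d b hxy h1 _ h3 => key N x y d b hxy h1 h3⟩
    · exact ⟨g.coeff n, h, fun x y d b hxy _ h2 h3 =>
        key g x y d b hxy (Dvd.dvd.mul_left h2 b) h3⟩
  set k := max U.natDegree V.natDegree with hk
  set S' : Finset ℕ := (S ∪ c.natAbs.primeFactors) ∪ r.natAbs.primeFactors with hS'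
  have hS'p : ∀ p ∈ S', p.Prime := by
    intro p hp
    rw [hS', mem_union, mem_union] at hp
    rcases hp with (h | h) | h
    · exact hS p h
    · exact Nat.prime_of_mem_primeFactors h
    · exact Nat.prime_of_mem_primeFactors h
  have hSS' : S ⊆ S' := fun p hp => mem_union_left _ (mem_union_left _ hp)
  have hcS' : IsSUnit S' c := (isSUnit_primeFactors hc0).mono
    fun p hp => mem_union_left _ (mem_union_right _ hp)
  have hrS' : IsSUnit S' r := (isSUnit_primeFactors hr).mono fun p hp => mem_union_right _ hp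
  -- the values of the form are S'-units
  have hunit : ∀ t : ℚ, (∃ m : ℚ, IsSInt S m ∧ aeval t N = m * aeval t g) →
      form g n t.num t.den ≠ 0 → IsSUnit S' (form g n t.num t.den) := by
    rintro t ⟨m, hmS, hm⟩ hne
    have hZ : (t.den : ℤ) ≠ 0 := by exact_mod_cast t.den_nz
    have ht : ((t.num : ℚ)) / ((t.den : ℤ) : ℚ) = t := by
      rw [Int.cast_natCast]; exact Rat.num_div_den t
    have eN := form_eq_of_le hN t.num t.den hZ
    have eg := form_eq_of_le hg t.num t.den hZ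
    have eU := form_eq_of_le (le_max_left U.natDegree V.natDegree) t.num t.den hZ
    have eV := form_eq_of_le (le_max_right U.natDegree V.natDegree) t.num t.den hZ
    rw [ht] at eN eg eU eV
    set b : ℤ := (m.den : ℤ) with hb
    have hb0 : b ≠ 0 := by rw [hb]; exact_mod_cast m.den_nz
    have hbS' : IsSUnit S' b := by
      refine ⟨hb0, fun p hp h => hSS' (hmS p hp ?_)⟩
      rw [hb, Int.natCast_dvd_natCast] at h
      exact h
    have h1 : b * form N n t.num t.den = m.num * form g n t.num t.den := by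
      have hmm : (m.num : ℚ) = (b : ℚ) * m := by
        rw [hb, Int.cast_natCast]
        exact m.den_mul_eq_num.symm
      have : ((b * form N n t.num t.den : ℤ) : ℚ) = ((m.num * form g n t.num t.den : ℤ) : ℚ) := by
        push_cast
        rw [eN, eg, hm, hmm]
        ring
      exact_mod_cast this
    have h2 : form U k t.num t.den * form N n t.num t.den
        + form V k t.num t.den * form g n t.num t.den = (t.den : ℤ) ^ (n + k) * r := by
      have h3 : aeval t U * aeval t N + aeval t V * aeval t g = (r : ℚ) := by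
        rw [← map_mul, ← map_mul, ← map_add, hUV, aeval_C]
        rfl
      have : ((form U k t.num t.den * form N n t.num t.den
          + form V k t.num t.den * form g n t.num t.den : ℤ) : ℚ)
          = (((t.den : ℤ) ^ (n + k) * r : ℤ) : ℚ) := by
        push_cast
        rw [eN, eg, eU, eV, ← h3, pow_add]
        push_cast
        ring
      exact_mod_cast this
    have h3 : form g n t.num t.den ∣ (t.den : ℤ) ^ (n + k) * (b * r) := by
      have h4 : (t.den : ℤ) ^ (n + k) * (b * r)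
          = form U k t.num t.den * (b * form N n t.num t.den)
            + b * form V k t.num t.den * form g n t.num t.den := by
        linear_combination -b * h2
      rw [h4, h1]
      exact dvd_add (Dvd.dvd.mul_left (Dvd.dvd.mul_left dvd_rfl _) _) (Dvd.dvd.mul_left dvd_rfl _)
    have hcop' : IsCoprime t.num (t.den : ℤ) := by
      rw [Int.isCoprime_iff_gcd_eq_one]
      have := t.reduced
      simpa [Int.gcd, Nat.Coprime] using this
    have h4 : GCDMonoid.gcd (form g n t.num t.den) (t.den : ℤ) ∣ b * c := by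
      refine hc t.num t.den _ b hcop' ?_ (gcd_dvd_left _ _) (gcd_dvd_right _ _)
      rw [h1]
      exact Dvd.dvd.mul_left (gcd_dvd_left _ _) _
    have h5 := dvd_gcd_mul_of_dvd_mul h3
    have h6 : form g n t.num t.den ∣ (b * c) ^ (n + k) * (b * r) :=
      h5.trans (mul_dvd_mul (gcd_pow_right_dvd_pow_gcd.trans (pow_dvd_pow_of_dvd h4 _)) dvd_rfl)
    exact (((hbS'.mul hcS').pow _).mul (hbS'.mul hrS')).of_dvd h6
  refine ((finite_form_S hsq hn hg hgn hS'p).image
    (fun p : ℤ × ℤ => ((p.1 : ℚ) / (p.2 : ℚ)))).subset ?_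
  rintro t ⟨ht0, htm⟩
  have hZ : (t.den : ℤ) ≠ 0 := by exact_mod_cast t.den_nz
  have ht : ((t.num : ℚ)) / ((t.den : ℤ) : ℚ) = t := by
    rw [Int.cast_natCast]; exact Rat.num_div_den t
  refine ⟨(t.num, (t.den : ℤ)), ⟨?_, hunit t htm ?_⟩, ht⟩
  · rw [Int.isCoprime_iff_gcd_eq_one]
    have := t.reduced
    simpa [Int.gcd, Nat.Coprime] using this
  · intro h
    have eg := form_eq_of_le hg t.num t.den hZ
    rw [ht, h, Int.cast_zero] at eg
    have hZ' : (((t.den : ℤ)) : ℚ) ≠ 0 := by exact_mod_cast hZ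
    exact ht0 ((mul_eq_zero.mp eg.symm).resolve_left (pow_ne_zero _ hZ'))

/-- **S-integral values of a rational function**: `N`, `g ∈ ℚ[X]` coprime, `g` squarefree of degree
`≥ 3`, `n` the maximum of the degrees, `deg g ≥ n - 1`. -/
theorem finite_values_rat_S {N g : ℚ[X]} {n : ℕ} (hn : 3 ≤ g.natDegree) (hsq : Squarefree g)
    (hcop : IsCoprime N g) (hN : N.natDegree ≤ n) (hg : g.natDegree ≤ n)
    (hgn : n ≤ g.natDegree + 1) (hlead : N.coeff n ≠ 0 ∨ g.coeff n ≠ 0) {S : Finset ℕ}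
    (hS : ∀ p ∈ S, p.Prime) :
    {t : ℚ | g.eval t ≠ 0 ∧ ∃ m : ℚ, IsSInt S m ∧ N.eval t = m * g.eval t}.Finite := by
  obtain ⟨D₁, hD₁, A, hA⟩ := exists_clear N
  obtain ⟨D₂, hD₂, B, hB⟩ := exists_clear g
  have hD₁' : (D₁ : ℚ) ≠ 0 := by exact_mod_cast hD₁
  have hD₂' : (D₂ : ℚ) ≠ 0 := by exact_mod_cast hD₂
  have hD : ((D₁ : ℚ) * D₂) ≠ 0 := mul_ne_zero hD₁' hD₂'
  have e1 : (C D₂ * A).map (Int.castRingHom ℚ) = C ((D₁ : ℚ) * D₂) * N := by
    rw [Polynomial.map_mul, map_C, hA, C_mul]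
    simp only [eq_intCast]
    ring
  have e2 : (C D₁ * B).map (Int.castRingHom ℚ) = C ((D₁ : ℚ) * D₂) * g := by
    rw [Polynomial.map_mul, map_C, hB, C_mul]
    simp only [eq_intCast]
    ring
  have hu : IsUnit (C ((D₁ : ℚ) * D₂)) := isUnit_C.mpr (IsUnit.mk0 _ hD)
  have hdeg : ∀ (F : ℤ[X]) (G : ℚ[X]), F.map (Int.castRingHom ℚ) = C ((D₁ : ℚ) * D₂) * G →
      F.natDegree = G.natDegree := by
    intro F G h
    rw [← natDegree_map_eq_of_injective (f := Int.castRingHom ℚ) Int.cast_injective F, h,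
      natDegree_C_mul hD]
  have hco : ∀ (F : ℤ[X]) (G : ℚ[X]), F.map (Int.castRingHom ℚ) = C ((D₁ : ℚ) * D₂) * G →
      G.coeff n ≠ 0 → F.coeff n ≠ 0 := by
    intro F G h h1 h2
    have h3 := congrArg (fun p => p.coeff n) h
    simp only [coeff_map, coeff_C_mul, h2, map_zero] at h3
    exact (mul_ne_zero hD h1) h3.symm
  have hval : ∀ (F : ℤ[X]) (G : ℚ[X]), F.map (Int.castRingHom ℚ) = C ((D₁ : ℚ) * D₂) * G →
      ∀ t : ℚ, aeval t F = ((D₁ : ℚ) * D₂) * G.eval t := by
    intro F G h t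
    have h3 := congrArg (fun p => p.eval t) h
    simp only [eval_map, eval_mul, eval_C] at h3
    rw [← h3]
    rfl
  have h := finite_values_S (N := C D₂ * A) (g := C D₁ * B) (n := n)
    (by rw [hdeg _ _ e2]; exact hn)
    (by rw [e2]; exact hsq.squarefree_of_dvd (hu.mul_left_dvd.mpr dvd_rfl))
    (by rw [e1, e2]
        exact (isCoprime_mul_unit_left hu _ _).mpr hcop)
    (by rw [hdeg _ _ e1]; exact hN) (by rw [hdeg _ _ e2]; exact hg)
    (by rw [hdeg _ _ e2]; exact hgn)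
    (by
      rcases hlead with h | h
      · exact Or.inl (hco _ _ e1 h)
      · exact Or.inr (hco _ _ e2 h)) hS
  refine h.subset ?_
  rintro t ⟨ht0, m, hmS, hm⟩
  refine ⟨?_, m, hmS, ?_⟩
  · rw [hval _ _ e2]
    exact mul_ne_zero hD ht0
  · rw [hval _ _ e1, hval _ _ e2, hm]
    ring

/-- **S-integral points on short curves** (Mahler 1934): the abscissas. -/
theorem finite_x_S {a b : ℚ} (hD : 4 * a ^ 3 + 27 * b ^ 2 ≠ 0) {S : Finset ℕ}
    (hSp : ∀ p ∈ S, p.Prime) :
    {x : ℚ | IsSInt S x ∧ ∃ y : ℚ, y ^ 2 = x ^ 3 + a * x + b}.Finite := by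
  classical
  have hΔ : (shortW a b).Δ ≠ 0 := by
    rw [shortW_Δ]
    exact mul_ne_zero (by norm_num) hD
  have hE : (shortW a b).IsElliptic := ⟨isUnit_iff_ne_zero.mpr hΔ⟩
  obtain ⟨R, hRfin, hR⟩ := exists_reps (MordellWeil.mordell_weil ℚ (shortW a b))
  -- the coordinate of a point
  let xc : (shortW a b).toAffine.Point → Set ℚ := fun P =>
    {x : ℚ | ∃ (y : ℚ) (h : (shortW a b).toAffine.Nonsingular x y), P = .some x y h}
  have hxc : ∀ P, (xc P).Finite := by
    intro P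
    refine Set.Subsingleton.finite ?_
    rintro x ⟨y, h, rfl⟩ x' ⟨y', h', h2⟩
    exact (Affine.Point.some.inj h2).1
  let B : (shortW a b).toAffine.Point → Set ℚ := fun R =>
    {x : ℚ | IsSInt S x ∧ ∃ (y : ℚ) (h : (shortW a b).toAffine.Nonsingular x y)
      (Q : (shortW a b).toAffine.Point), .some x y h = Q + Q + R}
  have hB : ∀ R, (B R).Finite := by
    intro R
    rcases R with _ | ⟨xR, yR, hR⟩
    · -- duplication
      have hfin := finite_values_rat_S (n := 4) (natDegree_g₀ a b).ge (squarefree_g₀ hD)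
        (isCoprime_n₀ hD) (natDegree_n₀ a b).le (by rw [natDegree_g₀]; norm_num)
        (by rw [natDegree_g₀]) (Or.inl (coeff_n₀ a b)) hSp
      refine (hfin.image (fun t => (n₀ a b).eval t / (g₀ a b).eval t)).subset ?_
      rintro x ⟨hxS, y, h, Q, hQ⟩
      have hQ' : .some x y h = Q + Q := by
        rw [hQ]
        exact add_zero _
      obtain ⟨x', y', t, hx', e1, e2, e3⟩ := slope_zero _ Q (Affine.Point.some_ne_zero h) hQ'
      have hxx : x = x' := (Affine.Point.some.inj e1).1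
      rw [← hxx] at e3
      exact ⟨t, ⟨e2, x, hxS, e3⟩, by simp only; rw [e3, mul_div_cancel_right₀ _ e2]⟩
    · have hRc : yR ^ 2 = xR ^ 3 + a * xR + b := equation_short hR.1
      have hfin := finite_values_rat_S (n := 4) (by rw [natDegree_gR]; norm_num)
        (squarefree_gR hD hRc) (isCoprime_nR hD hRc)
        (natDegree_nR a b xR yR) (natDegree_gR a xR yR).le (by rw [natDegree_gR]; norm_num)
        (Or.inr (by rw [coeff_gR]; exact one_ne_zero)) hSp
      refine (((hfin.image (fun t => (nR a b xR yR).eval t / (gR a xR yR).eval t)).union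
        (hxc (.some xR yR hR))).union ((hxc (3 • .some xR yR hR)).union
        (hxc (-.some xR yR hR)))).subset ?_
      rintro x ⟨hxS, y, h, Q, hQ⟩
      rcases slope_some hR _ Q (Affine.Point.some_ne_zero h) hQ with h1 | h1 | h1 | h1
      · exact Or.inl (Or.inr ⟨y, h, h1.symm⟩)
      · exact Or.inr (Or.inl ⟨y, h, h1.symm⟩)
      · exact Or.inr (Or.inr ⟨y, h, h1.symm⟩)
      · obtain ⟨x', y', t, hx', e1, e2, e3⟩ := h1
        left; left
        have hxx : x = x' := (Affine.Point.some.inj e1).1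
        rw [← hxx] at e3
        exact ⟨t, ⟨e2, x, hxS, e3⟩, by simp only; rw [e3, mul_div_cancel_right₀ _ e2]⟩
  refine (Set.Finite.biUnion hRfin fun R _ => hB R).subset ?_
  rintro x ⟨hxS, y, hy⟩
  have hns : (shortW a b).toAffine.Nonsingular x y := by
    refine (Affine.equation_iff_nonsingular).mp ?_
    rw [Affine.equation_iff]
    simpa using hy
  obtain ⟨R₀, hR₀, Q, hQ⟩ := hR (.some x y hns)
  rw [Set.mem_iUnion₂]
  exact ⟨R₀, hR₀, hxS, y, hns, Q, hQ⟩

theorem finite_sq_rat (m : ℚ) : {y : ℚ | y ^ 2 = m}.Finite := by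
  by_cases h : ∃ z : ℚ, z ^ 2 = m
  · obtain ⟨z, rfl⟩ := h
    refine (Set.toFinite {z, -z}).subset fun y hy => ?_
    have h1 : y ^ 2 = z ^ 2 := hy
    rcases sq_eq_sq_iff_eq_or_eq_neg.mp h1 with h | h
    · left; exact h
    · right; exact h
  · refine Set.finite_empty.subset fun y hy => h ⟨y, hy⟩

theorem IsSInt.add {S : Finset ℕ} {x y : ℚ} (hx : IsSInt S x) (hy : IsSInt S y) :
    IsSInt S (x + y) := by
  intro p hp h
  have h1 : p ∣ x.den * y.den := h.trans (Rat.add_den_dvd x y)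
  rcases (hp.dvd_mul).mp h1 with h | h
  · exact hx p hp h
  · exact hy p hp h

theorem IsSInt.mul {S : Finset ℕ} {x y : ℚ} (hx : IsSInt S x) (hy : IsSInt S y) :
    IsSInt S (x * y) := by
  intro p hp h
  have h1 : p ∣ x.den * y.den := h.trans (Rat.mul_den_dvd x y)
  rcases (hp.dvd_mul).mp h1 with h | h
  · exact hx p hp h
  · exact hy p hp h

theorem isSInt_intCast (S : Finset ℕ) (m : ℤ) : IsSInt S (m : ℚ) := by
  intro p hp h
  rw [Rat.den_intCast] at h
  exact absurd (Nat.dvd_one.mp h) hp.one_lt.ne'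

/-- **S-integral points on elliptic curves over `ℚ`** (Mahler 1934): any Weierstrass equation over
`ℚ` with `Δ ≠ 0` and any finite set `S` of primes. -/
theorem finite_S_integral_points (W : WeierstrassCurve ℚ) (hΔ : W.Δ ≠ 0) {S : Finset ℕ}
    (hS : ∀ p ∈ S, p.Prime) :
    {P : ℚ × ℚ | W.toAffine.Equation P.1 P.2 ∧ IsSInt S P.1}.Finite := by
  classical
  set A : ℚ := -27 * W.c₄ with hA
  set B : ℚ := -54 * W.c₆ with hB
  have hD : 4 * A ^ 3 + 27 * B ^ 2 ≠ 0 := by
    have h1 : 4 * A ^ 3 + 27 * B ^ 2 = -(2 ^ 2 * 27 ^ 3 * 1728) * W.Δ := by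
      have h2 := W.c_relation
      rw [hA, hB]
      linear_combination (2 ^ 2 * 27 ^ 3 : ℚ) * h2
    rw [h1]
    exact mul_ne_zero (by norm_num) hΔ
  set S' : Finset ℕ := S ∪ W.b₂.den.primeFactors with hS'
  have hS'p : ∀ p ∈ S', p.Prime := by
    intro p hp
    rw [hS', mem_union] at hp
    rcases hp with h | h
    · exact hS p h
    · exact Nat.prime_of_mem_primeFactors h
  have hb : IsSInt S' W.b₂ := fun p hp h => by
    rw [hS', mem_union]
    right
    rw [Nat.mem_primeFactors]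
    exact ⟨hp, h, W.b₂.den_nz⟩
  have h := finite_x_S hD hS'p
  have hfin : (⋃ x ∈ {x : ℚ | IsSInt S' x ∧ ∃ y : ℚ, y ^ 2 = x ^ 3 + A * x + B},
      ({x} ×ˢ {y : ℚ | y ^ 2 = x ^ 3 + A * x + B})).Finite :=
    Set.Finite.biUnion h fun x _ => (Set.finite_singleton x).prod (finite_sq_rat _)
  have hinj : Set.InjOn (fun P : ℚ × ℚ =>
      (36 * P.1 + 3 * W.b₂, 108 * (2 * P.2 + W.a₁ * P.1 + W.a₃)))
      {P : ℚ × ℚ | W.toAffine.Equation P.1 P.2 ∧ IsSInt S P.1} := by
    rintro ⟨x, y⟩ - ⟨x', y'⟩ - hxy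
    simp only [Prod.mk.injEq] at hxy ⊢
    obtain ⟨h1, h2⟩ := hxy
    have h3 : x = x' := by linarith
    subst h3
    refine ⟨rfl, ?_⟩
    linarith
  refine Set.Finite.of_finite_image (hfin.subset ?_) hinj
  rintro _ ⟨⟨x, y⟩, ⟨hxy, hxS⟩, rfl⟩
  have hxy0 : W.toAffine.Equation x y := hxy
  rw [Affine.equation_iff] at hxy0
  have hcurve : (108 * (2 * y + W.a₁ * x + W.a₃)) ^ 2
      = (36 * x + 3 * W.b₂) ^ 3 + A * (36 * x + 3 * W.b₂) + B := by
    rw [hA, hB, WeierstrassCurve.c₄, WeierstrassCurve.c₆, WeierstrassCurve.b₂,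
      WeierstrassCurve.b₄, WeierstrassCurve.b₆]
    linear_combination (108 ^ 2 * 4 : ℚ) * hxy0
  have hxS' : IsSInt S' x := fun p hp hpd => mem_union_left _ (hxS p hp hpd)
  rw [Set.mem_iUnion₂]
  refine ⟨36 * x + 3 * W.b₂, ⟨?_, _, hcurve⟩, rfl, hcurve⟩
  have e1 : IsSInt S' (36 * x) := by
    have := (isSInt_intCast S' 36).mul hxS'
    exact_mod_cast this
  have e2 : IsSInt S' (3 * W.b₂) := by
    have := (isSInt_intCast S' 3).mul hb
    exact_mod_cast this
  exact e1.add e2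

end Fermat.Agent.Cor.Mahl
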