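import Fermat.Agent.Corollaries.Mahl.General

/-!
# The S-unit equation

Mahler 1933: for a finite set `S` of primes there are only finitely many pairs of coprime integers
`x`, `y` such that `x`, `y` and `x + y` have all their prime factors in `S`.
-/

open Polynomial Finset

namespace Fermat.Agent.Cor.Mahl

open Fermat.Agent.Cor.Thue

theorem IsSUnit.mul {S : Finset ℕ} {x y : ℤ} (hx : IsSUnit S x) (hy : IsSUnit S y) :
    IsSUnit S (x * y) := by
  refine ⟨mul_ne_zero hx.1 hy.1, fun p hp h => ?_⟩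
  have hpp : Prime (p : ℤ) := Nat.prime_iff_prime_int.mp hp
  rcases hpp.dvd_or_dvd h with h | h
  · exact hx.2 p hp h
  · exact hy.2 p hp h

theorem IsSUnit.of_dvd {S : Finset ℕ} {x y : ℤ} (hx : IsSUnit S x) (hy : y ∣ x) :
    IsSUnit S y :=
  ⟨fun h => hx.1 (zero_dvd_iff.mp (h ▸ hy)), fun p hp h => hx.2 p hp (h.trans hy)⟩

/-- The polynomial `X (X - 1) (2 X - 1)`. -/
noncomputable def fU : ℤ[X] := C 2 * X ^ 3 - C 3 * X ^ 2 + X

theorem natDegree_fU : fU.natDegree = 3 := by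
  unfold fU; compute_degree!

theorem form_fU (x y : ℤ) : form fU 3 x (x - y) = x * y * (x + y) := by
  have h0 : fU.coeff 0 = 0 := by simp [fU, coeff_X]
  have h1 : fU.coeff 1 = 1 := by simp [fU, coeff_X, coeff_X_pow]
  have h2 : fU.coeff 2 = -3 := by simp [fU, coeff_X, coeff_X_pow]
  have h3 : fU.coeff 3 = 2 := by simp [fU, coeff_X, coeff_X_pow]
  rw [form, sum_range_succ, sum_range_succ, sum_range_succ, sum_range_succ, sum_range_zero,
    h0, h1, h2, h3]
  ring

theorem squarefree_fU : Squarefree (fU.map (Int.castRingHom ℚ)) := by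
  refine Separable.squarefree ?_
  rw [separable_def']
  refine ⟨C (-18) * (C 2 * X - C 1), C 12 * X ^ 2 - C 12 * X + C 1, ?_⟩
  have h1 : fU.map (Int.castRingHom ℚ) = C 2 * X ^ 3 - C 3 * X ^ 2 + X := by
    simp [fU]
    rw [map_ofNat C 2, map_ofNat C 3]
  rw [h1]
  simp only [derivative_add, derivative_sub, derivative_C_mul, derivative_X_pow, derivative_X]
  simp only [map_ofNat, map_neg, map_one, Nat.cast_ofNat, Nat.add_one_sub_one]
  norm_num
  ring

/-- **The S-unit equation** (Mahler 1933). -/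
theorem sUnit_equation {S : Finset ℕ} (hS : ∀ p ∈ S, p.Prime) :
    {P : ℤ × ℤ | IsCoprime P.1 P.2 ∧ IsSUnit S P.1 ∧ IsSUnit S P.2 ∧
      IsSUnit S (P.1 + P.2)}.Finite := by
  have h := thueMahler fU squarefree_fU natDegree_fU.ge S hS
  rw [natDegree_fU] at h
  refine Set.Finite.of_finite_image (f := fun P : ℤ × ℤ => (P.1, P.1 - P.2)) (h.subset ?_) ?_
  · rintro _ ⟨⟨x, y⟩, ⟨h1, h2, h3, h4⟩, rfl⟩
    simp only at h1 h2 h3 h4
    refine ⟨?_, ?_⟩
    · change IsCoprime x (x - y)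
      have h5 : IsCoprime x (-y + x * 1) := (IsCoprime.add_mul_left_right_iff).mpr h1.neg_right
      have h6 : -y + x * 1 = x - y := by ring
      rwa [h6] at h5
    · change IsSUnit S (form fU 3 x (x - y))
      rw [form_fU]
      exact (h2.mul h3).mul h4
  · rintro ⟨x, y⟩ - ⟨x', y'⟩ - hxy
    simp only [Prod.mk.injEq] at hxy ⊢
    exact ⟨hxy.1, by omega⟩

/-- A rational number is a unit outside of `S`. -/
def IsSUnitRat (S : Finset ℕ) (u : ℚ) : Prop :=
  u ≠ 0 ∧ ∀ p : ℕ, p.Prime → p ∉ S → padicValRat p u = 0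

theorem IsSUnitRat.num {S : Finset ℕ} {u : ℚ} (hu : IsSUnitRat S u) :
    IsSUnit S u.num ∧ IsSUnit S u.den := by
  have hn : u.num ≠ 0 := Rat.num_ne_zero.mpr hu.1
  have hd : (u.den : ℤ) ≠ 0 := by exact_mod_cast u.den_nz
  refine ⟨⟨hn, fun p hp h => ?_⟩, ⟨hd, fun p hp h => ?_⟩⟩
  · by_contra hpS
    have : Fact p.Prime := ⟨hp⟩
    have h1 := hu.2 p hp hpS
    rw [padicValRat_def] at h1
    have h2 : padicValNat p u.den = 0 := by
      refine padicValNat.eq_zero_of_not_dvd fun h3 => ?_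
      have h4 := Nat.Coprime.eq_one_of_dvd_of_dvd' u.reduced (Int.natCast_dvd.mp h) h3
      exact hp.one_lt.ne' h4
    have h3 : 1 ≤ padicValInt p u.num := by
      rw [padicValInt]
      exact one_le_padicValNat_of_dvd (Int.natAbs_ne_zero.mpr hn) (Int.natCast_dvd.mp h)
    omega
  · by_contra hpS
    have : Fact p.Prime := ⟨hp⟩
    have h1 := hu.2 p hp hpS
    rw [padicValRat_def] at h1
    rw [Int.natCast_dvd_natCast] at h
    have h2 : padicValInt p u.num = 0 := by
      rw [padicValInt]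
      refine padicValNat.eq_zero_of_not_dvd fun h3 => ?_
      have h4 := Nat.Coprime.eq_one_of_dvd_of_dvd' u.reduced h3 h
      exact hp.one_lt.ne' h4
    have h3 : 1 ≤ padicValNat p u.den := one_le_padicValNat_of_dvd u.den_nz h
    omega
where
  Nat.Coprime.eq_one_of_dvd_of_dvd' {k m n : ℕ} (h : Nat.Coprime m n) (h1 : k ∣ m) (h2 : k ∣ n) :
      k = 1 := Nat.eq_one_of_dvd_one (h ▸ Nat.dvd_gcd h1 h2)

/-- **The S-unit equation** `u + v = 1`: finitely many S-units `u` of `ℚ` such that `1 - u` is an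
S-unit. -/
theorem sUnit_equation_rat {S : Finset ℕ} (hS : ∀ p ∈ S, p.Prime) :
    {u : ℚ | IsSUnitRat S u ∧ IsSUnitRat S (1 - u)}.Finite := by
  have h := sUnit_equation hS
  refine (h.image (fun P : ℤ × ℤ => (P.1 : ℚ) / ((P.1 + P.2 : ℤ) : ℚ))).subset ?_
  rintro u ⟨hu, hv⟩
  obtain ⟨h1, h2⟩ := hu.num
  have hd : (u.den : ℚ) ≠ 0 := by exact_mod_cast u.den_nz
  have hdz : (u.den : ℤ) ≠ 0 := by exact_mod_cast u.den_nz
  have hu' : u = (u.num : ℚ) / (u.den : ℚ) := (Rat.num_div_den u).symm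
  have hv' : 1 - u = (((u.den : ℤ) - u.num : ℤ) : ℚ) / ((u.den : ℤ) : ℚ) := by
    push_cast
    rw [sub_div, div_self hd, ← hu']
  have hne : ((u.den : ℤ) - u.num) ≠ 0 := by
    intro h0
    rw [h0, Int.cast_zero, zero_div] at hv'
    exact hv.1 hv'
  have hcop : IsCoprime u.num (u.den : ℤ) := by
    rw [Int.isCoprime_iff_gcd_eq_one]
    have := u.reduced
    simpa [Int.gcd, Nat.Coprime] using this
  refine ⟨(u.num, (u.den : ℤ) - u.num), ⟨?_, h1, ⟨hne, fun p hp hpd => ?_⟩, ?_⟩, ?_⟩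
  · change IsCoprime u.num ((u.den : ℤ) - u.num)
    have h5 : IsCoprime u.num ((u.den : ℤ) + u.num * (-1)) :=
      (IsCoprime.add_mul_left_right_iff).mpr hcop
    have h6 : (u.den : ℤ) + u.num * (-1) = (u.den : ℤ) - u.num := by ring
    rwa [h6] at h5
  · by_contra hpS
    have : Fact p.Prime := ⟨hp⟩
    have h3 := hv.2 p hp hpS
    have hpd' : ¬ (p : ℤ) ∣ (u.den : ℤ) := fun h4 => hpS (h2.2 p hp h4)
    rw [hv', padicValRat.div (by exact_mod_cast hne) (by exact_mod_cast hdz), padicValRat.of_int,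
      padicValRat.of_int] at h3
    have h5 : padicValInt p (u.den : ℤ) = 0 := padicValInt.eq_zero_of_not_dvd hpd'
    have h6 : 1 ≤ padicValInt p ((u.den : ℤ) - u.num) := by
      rw [padicValInt]
      exact one_le_padicValNat_of_dvd (Int.natAbs_ne_zero.mpr hne) (Int.natCast_dvd.mp hpd)
    rw [h5] at h3
    omega
  · change IsSUnit S (u.num + ((u.den : ℤ) - u.num))
    rw [add_sub_cancel]
    exact h2
  · simp only
    rw [add_sub_cancel]
    push_cast
    exact hu'.symm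

end Fermat.Agent.Cor.Mahl
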