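import Fermat.Agent.Corollaries.Mahl.Isogeny
import Fermat.Agent.Corollaries.NOS.Groth
import Fermat.Agent.Corollaries.Isog.QuotAll

/-!
# Irreducibility of the representations modulo `p`

* `finite_reducible` : an elliptic curve over `ℚ` with a prime of multiplicative reduction has a
  Galois stable subgroup of order `p` for finitely many primes `p` only (Serre 1968).
-/

set_option autoImplicit false

noncomputable section

open WeierstrassCurve WeierstrassCurve.Affine
open Fermat.Agent.ECRed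
open Fermat.Agent.Cor.Mazur (Pt)
open Fermat.Agent.Cor.K1 (Gam Pts actHom)
open Fermat.Agent.Cor.MinModel
open Fermat.Agent.Cor.NOS (Min)

namespace Fermat.Agent.Cor.Mahl

/-- A unipotent endomorphism fixes a stable subgroup of prime order. -/
theorem fixed_of_card_prime {G : Type*} [AddCommGroup G] {L : AddSubgroup G} {p : ℕ}
    (hp : p.Prime) (hL : Nat.card L = p) (f : G →+ G) (hst : ∀ x ∈ L, f x ∈ L)
    (hu : ∀ x ∈ L, f (f x - x) = f x - x) : ∀ x ∈ L, f x = x := by
  intro x hx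
  by_contra hne
  have hm : f x - x ∈ L := L.sub_mem (hst x hx) hx
  have hm0 : (⟨f x - x, hm⟩ : L) ≠ 0 := fun h => hne (sub_eq_zero.mp (congrArg Subtype.val h))
  have : Fact p.Prime := ⟨hp⟩
  have h1 : (⟨x, hx⟩ : L) ∈ AddSubgroup.zmultiples (⟨f x - x, hm⟩ : L) :=
    mem_zmultiples_of_prime_card hL hm0
  obtain ⟨k, hk⟩ := AddSubgroup.mem_zmultiples_iff.mp h1
  have h2 : k • (f x - x) = x := congrArg Subtype.val hk
  have h3 : f (k • (f x - x)) = k • (f x - x) := by rw [map_zsmul, hu x hx]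
  rw [h2] at h3
  exact hne h3

variable {W W' : WeierstrassCurve ℤ} {q p : ℕ} {A : ValuationSubring (AlgebraicClosure ℚ)}

/-- If `p ∤ v_q(Δ)` inertia moves a point of order `p`. -/
theorem exists_move (hW : IsMultAt W q) (hA : A.LiesOverPrime q) (hp : p.Prime) (hp2 : p ≠ 2)
    (hv : ¬ p ∣ padicValInt q W.Δ) :
    ∃ σ ∈ A.inertiaSubgroupIn ℚ, ∃ x : Pt W, p • x = 0 ∧ σ • x ≠ x := by
  obtain ⟨σ, hσ, hord⟩ := exists_inertia_order hW hp hp2 hv hA
  by_contra hcon
  push Not at hcon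
  have h1 : MulAction.toPermHom (AlgebraicClosure ℚ ≃ₐ[ℚ] AlgebraicClosure ℚ)
      (Submodule.torsionBy ℤ (EQ W).Point (p : ℤ)) σ = 1 := by
    ext x
    have hx : p • (x : (EQ W).Point) = 0 := by
      have := x.2
      rw [Submodule.mem_torsionBy_iff] at this
      exact_mod_cast this
    exact hcon σ hσ x.1 hx
  rw [h1, orderOf_one] at hord
  exact hp.ne_one hord.symm

/-- **The quotient by a subgroup of order `p`** has `p ∣ v_q(Δ)` if `p ∤ v_q(Δ)` for the curve. -/
theorem dvd_of_quotient (hW : IsMultAt W q) (hW' : IsMultAt W' q) (hA : A.LiesOverPrime q)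
    (hp : p.Prime) (hp2 : p ≠ 2) (hne : p ≠ q) (hv : ¬ p ∣ padicValInt q W.Δ)
    (φ : Pt W →+ Pt W') (hs : Function.Surjective φ)
    (hφ : ∀ (σ : Gam) (x : Pt W), φ (σ • x) = σ • φ x) (hcard : Nat.card φ.ker = p) :
    p ∣ padicValInt q W'.Δ := by
  classical
  by_contra hv'
  have hfact : Fact p.Prime := ⟨hp⟩
  have hU : NOS.UnipAt W A p := NOS.unipAt_of_not_isAdditiveAt hW.ne hW.prime hA hp hne
    (fun h => hW.ndvd h.2)
  obtain ⟨τ, hτ, x₀, hx₀, hτx₀⟩ := exists_move hW hA hp hp2 hv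
  obtain ⟨σ, hσ, y, hy, hσy⟩ := exists_move hW' hA hp hp2 hv'
  obtain ⟨x, rfl⟩ := hs y
  have hfinL : Finite φ.ker := Nat.finite_of_card_ne_zero (by rw [hcard]; exact hp.ne_zero)
  have hLp : ∀ l ∈ φ.ker, p • l = 0 := fun l hl => by
    have h1 : p • (⟨l, hl⟩ : φ.ker) = 0 := by
      rw [← hcard]
      exact card_nsmul_eq_zero'
    exact congrArg Subtype.val h1
  have hLst : ∀ (ρ : Gam) (l : Pt W), l ∈ φ.ker → ρ • l ∈ φ.ker := fun ρ l hl => by
    rw [AddMonoidHom.mem_ker] at hl ⊢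
    rw [hφ, hl]
    exact smul_zero (A := Pt W') ρ
  have hLfix : ∀ ρ ∈ A.inertiaSubgroupIn ℚ, ∀ l ∈ φ.ker, ρ • l = l := fun ρ hρ l hl =>
    fixed_of_card_prime hp hcard (actHom _ ρ) (hLst ρ)
      (fun z hz => hU ρ hρ 1 z (by rw [pow_one]; exact hLp z hz)) l hl
  have hpx : p • x ∈ φ.ker := by
    rw [AddMonoidHom.mem_ker, map_nsmul]
    exact hy
  have hpz : p • (σ • x - x) = 0 := by
    rw [nsmul_sub, ← K1.smul_nsmul_pts, hLfix σ hσ _ hpx, sub_self]
  have hτz : τ • (σ • x - x) = σ • x - x :=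
    hU.smul_smul_sub hW.ne hp hσ hτ (n := 2) (P := x) (by
      rw [pow_two, mul_smul]
      exact hLp _ hpx)
  -- the fixed points of order `p`
  let M : AddSubgroup (Pt W) := (nsmulAddMonoidHom p : Pt W →+ Pt W).ker
  let F : AddSubgroup (Pt W) := M ⊓ (actHom _ τ - AddMonoidHom.id _).ker
  have hF : ∀ u : Pt W, u ∈ F ↔ p • u = 0 ∧ τ • u = u := fun u => by
    change (p • u = 0 ∧ τ • u - u = 0) ↔ _
    rw [sub_eq_zero]
  have hM : Nat.card M = p ^ 2 := NOS.card_torsion hW.ne hp.ne_zero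
  have hMf : Finite M := Nat.finite_of_card_ne_zero (by rw [hM]; exact pow_ne_zero _ hp.ne_zero)
  have hFM : F ≤ M := inf_le_left
  have hFf : Finite F := Finite.of_injective _ (AddSubgroup.inclusion_injective hFM)
  have hLF : φ.ker ≤ F := fun l hl => (hF l).mpr ⟨hLp l hl, hLfix τ hτ l hl⟩
  have hFcard : Nat.card F ≤ p := by
    have h1 : Nat.card F ∣ p ^ 2 := by
      rw [← hM]
      exact AddSubgroup.card_dvd_of_le hFM
    obtain ⟨i, hi, hi'⟩ := (Nat.dvd_prime_pow hp).mp h1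
    rcases Nat.lt_or_ge i 2 with h4 | h4
    · rw [hi']
      calc p ^ i ≤ p ^ 1 := Nat.pow_le_pow_right hp.pos (by omega)
        _ = p := pow_one p
    · exfalso
      have h5 : i = 2 := by omega
      have h6 : F = M := AddSubgroup.eq_of_le_of_card_ge hFM (by rw [hM, hi', h5])
      have h7 : x₀ ∈ F := by
        rw [h6]
        exact hx₀
      exact hτx₀ ((hF x₀).mp h7).2
  have hLF' : φ.ker = F := AddSubgroup.eq_of_le_of_card_ge hLF (by rw [hcard]; exact hFcard)
  have hz : σ • x - x ∈ φ.ker := by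
    rw [hLF']
    exact (hF _).mpr ⟨hpz, hτz⟩
  rw [AddMonoidHom.mem_ker, map_sub, hφ, sub_eq_zero] at hz
  exact hσy hz

/-- **Serre 1968.** Let `E` be an elliptic curve over `ℚ` with a prime `q` of multiplicative
reduction.  Then `E(ℚ̄)` has a Galois stable subgroup of order `p` for finitely many primes `p`
only: the representation on the points of order `p` is irreducible for almost all `p`. -/
theorem finite_reducible {E : WeierstrassCurve ℚ} (hE : E.Δ ≠ 0) {q : ℕ} [hq : Fact q.Prime]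
    (hmult : ((E.map (algebraMap ℚ ℚ_[q])).minimal ℤ_[q]).HasMultiplicativeReduction ℤ_[q]) :
    {p : ℕ | p.Prime ∧ ∃ L : AddSubgroup (Pts E), Nat.card L = p ∧
      ∀ (σ : Gam), ∀ x ∈ L, σ • x ∈ L}.Finite := by
  classical
  obtain ⟨W, hW, hΔ, e, he⟩ := NOS.exists_model hE
  have hWm : IsMultAt W q := by
    have h1 := (NOS.hasMultiplicativeReduction_iff_dvd hE hW).mp hmult
    exact ⟨hq.out, h1.1, h1.2, hΔ⟩
  obtain ⟨T, hT, hTc⟩ := finite_isogeny_class hE
  obtain ⟨A, hA⟩ := Fermat.Agent.Frob.exists_liesOverPrime q hq.out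
  choose m hm using exists_isDiscMinimal
  have hval : ∀ {V : WeierstrassCurve ℤ}, IsMultAt V q → padicValInt q V.Δ ≠ 0 := by
    intro V hV h
    rw [padicValInt, padicValNat.eq_zero_iff] at h
    rcases h with h | h | h
    · exact hq.out.ne_one h
    · exact hV.ne (Int.natAbs_eq_zero.mp h)
    · exact h (Int.natCast_dvd.mp hV.dvd)
  refine ((({2, q} ∪ (padicValInt q W.Δ).primeFactors : Finset ℕ).finite_toSet).union
    (hT.biUnion fun V _ => (padicValInt q (m V).Δ).primeFactors.finite_toSet)).subset ?_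
  rintro p ⟨hp, L, hL, hst⟩
  by_cases h1 : p ∈ ({2, q} ∪ (padicValInt q W.Δ).primeFactors : Finset ℕ)
  · exact Or.inl h1
  · right
    rw [Finset.mem_union, Finset.mem_insert, Finset.mem_singleton, not_or, not_or,
      Nat.mem_primeFactors] at h1
    have hLf : Finite L := Nat.finite_of_card_ne_zero (by rw [hL]; exact hp.ne_zero)
    obtain ⟨E', hE', φ, hφ, hker, hs⟩ := Isog.exists_quotient_all E hE L hLf hst
    have hkf : Finite φ.ker := by
      rw [hker]
      exact hLf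
    obtain ⟨V, hV, C, hC⟩ := hTc E' hE' φ hkf hφ
    rw [Set.mem_iUnion₂]
    refine ⟨V, hV, ?_⟩
    obtain ⟨e', he'⟩ := S41vc.exists_equiv_galois hE' hC
    have hVΔ : V.Δ ≠ 0 := by
      rw [← hC, variableChange_Δ]
      exact mul_ne_zero (pow_ne_zero _ (Units.ne_zero _)) hE'
    obtain ⟨C₂, hC₂⟩ := (hm V).1
    obtain ⟨e₂, he₂⟩ := S41vc.exists_equiv_galois hVΔ hC₂
    -- the isogeny to `V`
    let χ : Pts E →+ Pts V := e'.symm.toAddMonoidHom.comp φ
    have hχx : ∀ x, χ x = e'.symm (φ x) := fun x => rfl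
    have hχ : ∀ (σ : Gam) (x : Pts E), χ (σ • x) = σ • χ x := by
      intro σ x
      apply e'.injective
      rw [he', hχx, hχx, AddEquiv.apply_symm_apply, AddEquiv.apply_symm_apply, hφ]
    have hχk : ∀ x, χ x = 0 ↔ x ∈ L := by
      intro x
      rw [hχx, EmbeddingLike.map_eq_zero_iff, ← AddMonoidHom.mem_ker, hker]
    have hχf : Finite χ.ker := by
      have h2 : χ.ker = L := by
        ext x
        exact hχk x
      rw [h2]
      exact hLf
    have hVm : IsMultAt (m V) q := by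
      have h2 := (NOS.reduction_iff hE hVΔ χ hχf hχ q).2.1.mp hmult
      have h3 := (NOS.hasMultiplicativeReduction_iff_dvd hVΔ (hm V)).mp h2
      exact ⟨hq.out, h3.1, h3.2, Δ_ne_zero_of_model hVΔ (hm V).1⟩
    let ψ : Pt W →+ Pt (m V) := (e₂.symm.toAddMonoidHom.comp χ).comp e.toAddMonoidHom
    have hψx : ∀ x : Pt W, ψ x = e₂.symm (χ (e x)) := fun x => rfl
    have hψ : ∀ (σ : Gam) (x : Pt W), ψ (σ • x) = σ • ψ x := by
      intro σ x
      apply e₂.injective
      rw [he₂, hψx, hψx, AddEquiv.apply_symm_apply, AddEquiv.apply_symm_apply, he, hχ]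
    have hψs : Function.Surjective ψ := by
      intro y
      obtain ⟨x, hx⟩ := hs (e' (e₂ y))
      refine ⟨e.symm x, ?_⟩
      rw [hψx, AddEquiv.apply_symm_apply, hχx, hx, AddEquiv.symm_apply_apply,
        AddEquiv.symm_apply_apply]
    have hψc : Nat.card ψ.ker = p := by
      rw [← hL]
      refine Nat.card_congr ⟨fun x => ⟨e x.1, (hχk _).mp ?_⟩, fun x => ⟨e.symm x.1, ?_⟩, ?_, ?_⟩
      · have h2 : ψ x.1 = 0 := x.2
        rw [hψx, EmbeddingLike.map_eq_zero_iff] at h2
        exact h2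
      · rw [AddMonoidHom.mem_ker, hψx, AddEquiv.apply_symm_apply, (hχk _).mpr x.2, map_zero]
      · intro x
        exact Subtype.ext (e.symm_apply_apply x.1)
      · intro x
        exact Subtype.ext (e.apply_symm_apply x.1)
    have h := dvd_of_quotient hWm hVm hA hp h1.1.1 h1.1.2
      (fun h2 => h1.2 ⟨hp, h2, hval hWm⟩) ψ hψs hψ hψc
    exact Finset.mem_coe.mpr (Nat.mem_primeFactors.mpr ⟨hp, h, hval hVm⟩)

end Fermat.Agent.Cor.Mahl
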