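import Fermat.Agent.Corollaries.Mahl.Points

/-!
# Shafarevich's theorem for elliptic curves over `ℚ`

There are only finitely many isomorphism classes of elliptic curves over `ℚ` with good reduction
outside of a finite set of primes (Shafarevich 1963).
-/

open Polynomial Finset WeierstrassCurve

namespace Fermat.Agent.Cor.Mahl

open Fermat.Agent.Cor.Thue Fermat.Agent.Cor.Sieg

/-- Good reduction at `p`: after a change of variables over `ℚ_p` the curve is defined over `ℤ_p`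
and its discriminant is a unit. -/
def GoodAt (p : ℕ) [Fact p.Prime] (W : WeierstrassCurve ℚ) : Prop :=
  ∃ (V : WeierstrassCurve ℤ_[p]) (C : WeierstrassCurve.VariableChange ℚ_[p]),
    C • (W.map (algebraMap ℚ ℚ_[p])) = V.map (algebraMap ℤ_[p] ℚ_[p]) ∧ IsUnit V.Δ

theorem GoodAt.exists_val {p : ℕ} [Fact p.Prime] {W : WeierstrassCurve ℚ} (hΔ : W.Δ ≠ 0)
    (h : GoodAt p W) : ∃ m : ℤ, padicValRat p W.Δ = 12 * m ∧
      (W.c₄ ≠ 0 → 4 * m ≤ padicValRat p W.c₄) := by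
  obtain ⟨V, C, hVC, hu⟩ := h
  have hu0 : (C.u : ℚ_[p]) ≠ 0 := C.u.ne_zero
  have hui : ((C.u⁻¹ : ℚ_[p]ˣ) : ℚ_[p]) = (C.u : ℚ_[p])⁻¹ := Units.val_inv_eq_inv_val _
  refine ⟨(C.u : ℚ_[p]).valuation, ?_, ?_⟩
  · have h1 := congrArg WeierstrassCurve.Δ hVC
    rw [variableChange_Δ, map_Δ, map_Δ, hui, eq_ratCast] at h1
    have hΔp : ((W.Δ : ℚ) : ℚ_[p]) ≠ 0 := by exact_mod_cast hΔ
    have h2 := congrArg Padic.valuation h1
    rw [Padic.valuation_mul (pow_ne_zero _ (inv_ne_zero hu0)) hΔp, Padic.valuation_pow,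
      Padic.valuation_inv, Padic.valuation_ratCast] at h2
    have h3 : (algebraMap ℤ_[p] ℚ_[p] V.Δ).valuation = 0 := by
      have h4 : ‖(algebraMap ℤ_[p] ℚ_[p] V.Δ)‖ = 1 := PadicInt.isUnit_iff.mp hu
      have h5 : (algebraMap ℤ_[p] ℚ_[p] V.Δ) ≠ 0 := by
        intro h6
        rw [h6, norm_zero] at h4
        exact zero_ne_one h4
      rw [Padic.norm_eq_zpow_neg_valuation h5] at h4
      have hp1 : (1 : ℝ) < p := by exact_mod_cast (Fact.out : p.Prime).one_lt
      have h6 := (zpow_eq_one_iff_right₀ (by positivity) hp1.ne').mp h4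
      omega
    rw [h3] at h2
    push_cast at h2
    linarith
  · intro hc
    have h1 := congrArg WeierstrassCurve.c₄ hVC
    rw [variableChange_c₄, map_c₄, map_c₄, hui, eq_ratCast] at h1
    have hcp : ((W.c₄ : ℚ) : ℚ_[p]) ≠ 0 := by exact_mod_cast hc
    have h2 := congrArg Padic.valuation h1
    rw [Padic.valuation_mul (pow_ne_zero _ (inv_ne_zero hu0)) hcp, Padic.valuation_pow,
      Padic.valuation_inv, Padic.valuation_ratCast] at h2
    have h3 : 0 ≤ (algebraMap ℤ_[p] ℚ_[p] V.c₄).valuation := by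
      rw [← Padic.norm_le_one_iff_val_nonneg]
      exact PadicInt.norm_le_one V.c₄
    rw [← h2] at h3
    push_cast at h3
    linarith

theorem padicValRat_prod {T : Finset ℕ} (hT : ∀ p ∈ T, p.Prime) (e : ℕ → ℤ) (q : ℕ)
    (hq : q.Prime) :
    padicValRat q (∏ p ∈ T, (p : ℚ) ^ (e p)) = if q ∈ T then e q else 0 := by
  classical
  have : Fact q.Prime := ⟨hq⟩
  have hzpow : ∀ (x : ℚ) (k : ℤ), x ≠ 0 → padicValRat q (x ^ k) = k * padicValRat q x := by
    intro x k hx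
    rcases Int.eq_nat_or_neg k with ⟨j, rfl | rfl⟩
    · rw [zpow_natCast, padicValRat.pow]
    · rw [zpow_neg, zpow_natCast, padicValRat.inv, padicValRat.pow]
      ring
  induction T using Finset.induction_on with
  | empty => simp
  | insert p T hpT ih =>
    have hp := hT p (mem_insert_self p T)
    have hp0 : (p : ℚ) ≠ 0 := by exact_mod_cast hp.ne_zero
    have hprod : (∏ p ∈ T, (p : ℚ) ^ (e p)) ≠ 0 := prod_ne_zero_iff.mpr fun r hr => by
      have : (r : ℚ) ≠ 0 := by exact_mod_cast (hT r (mem_insert_of_mem hr)).ne_zero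
      exact zpow_ne_zero _ this
    rw [prod_insert hpT, padicValRat.mul (zpow_ne_zero _ hp0) hprod, hzpow _ _ hp0,
      ih fun r hr => hT r (mem_insert_of_mem hr), padicValRat.of_nat]
    by_cases hqp : q = p
    · subst hqp
      rw [if_pos (mem_insert_self q T), if_neg hpT, padicValNat_self]
      simp
    · have : Fact p.Prime := ⟨hp⟩
      rw [padicValNat_primes hqp]
      simp only [Nat.cast_zero, mul_zero, zero_add, mem_insert, hqp, false_or]

/-- Normalization of the discriminant. -/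
theorem exists_scale {W : WeierstrassCurve ℚ} (hΔ : W.Δ ≠ 0) {S : Finset ℕ}
    (hS : ∀ p ∈ S, p.Prime) (hgood : ∀ (p : ℕ) [Fact p.Prime], p ∉ S → GoodAt p W) :
    ∃ κ : ℚ, κ ≠ 0 ∧ ∃ D : ℤ, D ≠ 0 ∧ D ∣ (∏ p ∈ S, (p : ℤ)) ^ 12 ∧ W.Δ = κ ^ 12 * D ∧
      IsSInt S (W.c₄ / κ ^ 4) := by
  classical
  set T : Finset ℕ := (W.Δ.num.natAbs.primeFactors ∪ W.Δ.den.primeFactors) ∪ S with hT
  have hTp : ∀ p ∈ T, p.Prime := by
    intro p hp
    rw [hT, mem_union, mem_union] at hp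
    rcases hp with (h | h) | h
    · exact Nat.prime_of_mem_primeFactors h
    · exact Nat.prime_of_mem_primeFactors h
    · exact hS p h
  have hnT : ∀ q : ℕ, q.Prime → q ∉ T → padicValRat q W.Δ = 0 := by
    intro q hq hqT
    rw [hT, mem_union, mem_union, not_or, not_or, Nat.mem_primeFactors, Nat.mem_primeFactors]
      at hqT
    have : Fact q.Prime := ⟨hq⟩
    have h1 : ¬ q ∣ W.Δ.num.natAbs := fun h =>
      hqT.1.1 ⟨hq, h, Int.natAbs_ne_zero.mpr (Rat.num_ne_zero.mpr hΔ)⟩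
    have h2 : ¬ q ∣ W.Δ.den := fun h => hqT.1.2 ⟨hq, h, W.Δ.den_nz⟩
    rw [padicValRat_def, padicValInt, padicValNat.eq_zero_of_not_dvd h1,
      padicValNat.eq_zero_of_not_dvd h2]
    simp
  set κ : ℚ := ∏ p ∈ T, (p : ℚ) ^ (padicValRat p W.Δ / 12) with hκ
  have hκ0 : κ ≠ 0 := prod_ne_zero_iff.mpr fun p hp => by
    have : (p : ℚ) ≠ 0 := by exact_mod_cast (hTp p hp).ne_zero
    exact zpow_ne_zero _ this
  have hκv : ∀ q : ℕ, q.Prime → padicValRat q κ = padicValRat q W.Δ / 12 := by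
    intro q hq
    rw [hκ, padicValRat_prod hTp _ q hq]
    split_ifs with h
    · rfl
    · rw [hnT q hq h]
      simp
  set D : ℚ := W.Δ / κ ^ 12 with hD
  have hD0 : D ≠ 0 := div_ne_zero hΔ (pow_ne_zero _ hκ0)
  have hDv : ∀ q : ℕ, q.Prime → padicValRat q D = padicValRat q W.Δ % 12 := by
    intro q hq
    have : Fact q.Prime := ⟨hq⟩
    rw [hD, padicValRat.div hΔ (pow_ne_zero _ hκ0), padicValRat.pow, hκv q hq]
    push_cast
    omega
  have hden : D.den = 1 := by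
    by_contra hne
    obtain ⟨q, hq, hqd⟩ := Nat.exists_prime_and_dvd hne
    have : Fact q.Prime := ⟨hq⟩
    have h1 : ¬ q ∣ D.num.natAbs := fun h2 => by
      have h3 := Nat.dvd_gcd h2 hqd
      rw [D.reduced] at h3
      exact hq.one_lt.ne' (Nat.dvd_one.mp h3)
    have h2 := hDv q hq
    rw [padicValRat_def, padicValInt, padicValNat.eq_zero_of_not_dvd h1] at h2
    have h3 : 1 ≤ padicValNat q D.den := one_le_padicValNat_of_dvd D.den_nz hqd
    omega
  have hDint : D = (D.num : ℚ) := by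
    conv_lhs => rw [← Rat.num_div_den D]
    rw [hden, Nat.cast_one, div_one]
  have hDn : D.num ≠ 0 := Rat.num_ne_zero.mpr hD0
  have hDn' : D.num.natAbs ≠ 0 := Int.natAbs_ne_zero.mpr hDn
  have hvn : ∀ q : ℕ, q.Prime → (D.num.natAbs.factorization q : ℤ) = padicValRat q W.Δ % 12 := by
    intro q hq
    rw [← hDv q hq, hDint, padicValRat.of_int, Nat.factorization_def _ hq]
    rfl
  refine ⟨κ, hκ0, D.num, hDn, ?_, ?_, ?_⟩
  · -- divisibility
    set M : ℕ := ∏ p ∈ S, p with hM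
    have hM0 : M ≠ 0 := prod_ne_zero_iff.mpr fun p hp => (hS p hp).ne_zero
    have h1 : D.num.natAbs ∣ M ^ 12 := by
      rw [← Nat.factorization_prime_le_iff_dvd hDn' (pow_ne_zero _ hM0)]
      intro q hq
      have : Fact q.Prime := ⟨hq⟩
      by_cases hqS : q ∈ S
      · have h2 := hvn q hq
        have h3 : q ^ 12 ∣ M ^ 12 := pow_dvd_pow_of_dvd (dvd_prod_of_mem (fun p => p) hqS) 12
        have h4 := (hq.pow_dvd_iff_le_factorization (pow_ne_zero _ hM0)).mp h3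
        omega
      · obtain ⟨m, hm, -⟩ := (hgood q hqS).exists_val hΔ
        have h2 := hvn q hq
        rw [hm] at h2
        omega
    have h2 : ((M ^ 12 : ℕ) : ℤ) = (∏ p ∈ S, (p : ℤ)) ^ 12 := by
      rw [hM]; push_cast; rfl
    rw [← h2]
    exact Int.dvd_natCast.mpr h1
  · rw [← hDint, hD]
    field_simp
  · intro q hq hqd
    by_contra hqS
    have : Fact q.Prime := ⟨hq⟩
    by_cases hc : W.c₄ = 0
    · rw [hc, zero_div, Rat.den_zero] at hqd
      exact hq.one_lt.ne' (Nat.dvd_one.mp hqd)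
    obtain ⟨m, hm, hm4⟩ := (hgood q hqS).exists_val hΔ
    have h1 : padicValRat q (W.c₄ / κ ^ 4) = padicValRat q W.c₄ - 4 * m := by
      rw [padicValRat.div hc (pow_ne_zero _ hκ0), padicValRat.pow, hκv q hq, hm]
      push_cast
      omega
    have h2 := hm4 hc
    set x : ℚ := W.c₄ / κ ^ 4 with hx
    have h3 : ¬ q ∣ x.num.natAbs := fun h2 => by
      have h3 := Nat.dvd_gcd h2 hqd
      rw [x.reduced] at h3
      exact hq.one_lt.ne' (Nat.dvd_one.mp h3)
    rw [padicValRat_def, padicValInt, padicValNat.eq_zero_of_not_dvd h3] at h1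
    have h4 : 1 ≤ padicValNat q x.den := one_le_padicValNat_of_dvd x.den_nz hqd
    omega

/-- Every curve is isomorphic to its short form, scaled. -/
theorem exists_change (W : WeierstrassCurve ℚ) {κ : ℚ} (hκ : κ ≠ 0) :
    ∃ C : WeierstrassCurve.VariableChange ℚ,
      C • W = shortW (-27 * (W.c₄ / κ ^ 4)) (-54 * (W.c₆ / κ ^ 6)) := by
  refine ⟨⟨Units.mk0 (κ / 6) (by positivity), -W.b₂ / 12, -W.a₁ / 2,
    W.a₁ * W.b₂ / 24 - W.a₃ / 2⟩, ?_⟩
  rw [WeierstrassCurve.variableChange_def]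
  simp only [WeierstrassCurve.c₄, WeierstrassCurve.c₆, WeierstrassCurve.b₂,
    WeierstrassCurve.b₄, WeierstrassCurve.b₆]
  ext
  all_goals
    simp
    try field_simp
    try ring_nf
    try exact Or.inr trivial

/-- **Shafarevich's theorem** (1963) for elliptic curves over `ℚ`: there are only finitely many
isomorphism classes of elliptic curves over `ℚ` with good reduction outside of a finite set of
primes. -/
theorem shafarevich {S : Finset ℕ} (hS : ∀ p ∈ S, p.Prime) :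
    ∃ E : Set (WeierstrassCurve ℚ), E.Finite ∧ ∀ W : WeierstrassCurve ℚ, W.Δ ≠ 0 →
      (∀ (p : ℕ) [Fact p.Prime], p ∉ S → GoodAt p W) →
        ∃ W' ∈ E, ∃ C : WeierstrassCurve.VariableChange ℚ, C • W = W' := by
  classical
  set M : ℤ := (∏ p ∈ S, (p : ℤ)) ^ 12 with hM
  have hM0 : M ≠ 0 := pow_ne_zero _ (prod_ne_zero_iff.mpr fun p hp => by
    exact_mod_cast (hS p hp).ne_zero)
  have hdiv : {D : ℤ | D ∣ M ∧ D ≠ 0}.Finite := by
    refine (Set.finite_Icc (-|M|) |M|).subset fun D hD => ?_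
    exact abs_le.mp (Int.le_of_dvd (abs_pos.mpr hM0) ((abs_dvd_abs _ _).mpr hD.1))
  refine ⟨⋃ D ∈ {D : ℤ | D ∣ M ∧ D ≠ 0}, ⋃ x ∈ {x : ℚ | IsSInt S x ∧
      ∃ y : ℚ, y ^ 2 = x ^ 3 + 0 * x + (-1728 * D : ℚ)},
      (fun y : ℚ => shortW (-27 * x) (-54 * y)) ''
        {y : ℚ | y ^ 2 = x ^ 3 + 0 * x + (-1728 * D : ℚ)}, ?_, ?_⟩
  · refine Set.Finite.biUnion hdiv fun D hD => Set.Finite.biUnion ?_ fun x _ =>
      (finite_sq_rat _).image _
    refine finite_x_S ?_ hS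
    have hD' : (D : ℚ) ≠ 0 := by exact_mod_cast hD.2
    have h1 : (-1728 * (D : ℚ)) ^ 2 ≠ 0 := pow_ne_zero _ (mul_ne_zero (by norm_num) hD')
    intro h2
    apply h1
    linarith
  · intro W hΔ hgood
    obtain ⟨κ, hκ0, D, hD0, hDM, hDΔ, hc⟩ := exists_scale hΔ hS hgood
    obtain ⟨C, hC⟩ := exists_change W hκ0
    refine ⟨_, ?_, C, hC⟩
    have hcurve : (W.c₆ / κ ^ 6) ^ 2
        = (W.c₄ / κ ^ 4) ^ 3 + 0 * (W.c₄ / κ ^ 4) + (-1728 * D : ℚ) := by
      have h1 := W.c_relation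
      rw [hDΔ] at h1
      have h2 : W.c₆ ^ 2 = W.c₄ ^ 3 - 1728 * (κ ^ 12 * D) := by linarith
      have h3 : (W.c₆ / κ ^ 6) ^ 2 = W.c₆ ^ 2 / κ ^ 12 := by
        rw [div_pow, ← pow_mul]
      rw [h3, h2]
      field_simp
      ring
    rw [Set.mem_iUnion₂]
    refine ⟨D, ⟨hDM, hD0⟩, ?_⟩
    rw [Set.mem_iUnion₂]
    exact ⟨W.c₄ / κ ^ 4, ⟨hc, _, hcurve⟩, W.c₆ / κ ^ 6, hcurve, rfl⟩

end Fermat.Agent.Cor.Mahl
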