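import Fermat.Agent.Corollaries.Mahl.Serre
import Fermat.Agent.Corollaries.Surj.Core
import Fermat.Agent.Corollaries.HW.Irred

/-!
# Surjectivity of the representations modulo `p` for almost all `p`

* `exists_bound_surjective` : for an elliptic curve over `ℚ` with a prime of multiplicative
  reduction the image of Galois on the points of order `p` is `GL₂(𝔽_p)` for almost all `p`
  (Serre 1968).
-/

set_option autoImplicit false

noncomputable section

open WeierstrassCurve WeierstrassCurve.Affine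
open Fermat.Agent.ECRed Fermat.Agent.Classic Fermat.Agent.ECFrob
open Fermat.Agent.Cor.Mazur (Pt)
open Fermat.Agent.Cor.K1 (Gam Pts actHom)
open Fermat.Agent.Cor.MinModel
open Fermat.Agent.Cor.NOS (Min)
open Matrix

namespace Fermat.Agent.Cor.Mahl

variable {W : WeierstrassCurve ℤ} {q p : ℕ}

/-- The stable subgroup of a reducible representation. -/
theorem exists_stable_line (hΔ : W.Δ ≠ 0) [hp : Fact p.Prime] (hred : ¬ W.ModRepIsIrreducible p) :
    ∃ L : AddSubgroup (Pt W), Nat.card L = p ∧ ∀ (σ : Gam), ∀ x ∈ L, σ • x ∈ L := by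
  obtain ⟨v, hv, hst⟩ := HW.exists_stable_of_reducible hΔ hred
  obtain ⟨e, he⟩ := exists_equiv p hΔ
  set g := e.symm v with hg
  have hg0 : (g : Pt W) ≠ 0 := by
    intro h
    have h1 : g = 0 := Subtype.ext h
    apply hv
    have h2 := congrArg e h1
    rwa [hg, e.apply_symm_apply, map_zero] at h2
  have hgp : p • (g : Pt W) = 0 := by
    have h1 := g.2
    rw [Submodule.mem_torsionBy_iff] at h1
    exact_mod_cast h1
  have hgσ : ∀ σ : Gam, ∃ n : ℕ, σ • (g : Pt W) = n • (g : Pt W) := by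
    intro σ
    obtain ⟨a, ha⟩ := hst σ
    refine ⟨a.val, ?_⟩
    have h1 : σ • g = a.val • g := by
      apply e.injective
      rw [he, hg, e.apply_symm_apply, map_nsmul, e.apply_symm_apply]
      refine ha.trans ?_
      rw [← Nat.cast_smul_eq_nsmul (ZMod p), ZMod.natCast_zmod_val]
    exact congrArg Subtype.val h1
  refine ⟨AddSubgroup.zmultiples (g : Pt W), ?_, ?_⟩
  · rw [Nat.card_zmultiples]
    exact addOrderOf_eq_prime hgp hg0
  · intro σ x hx
    obtain ⟨k, rfl⟩ := AddSubgroup.mem_zmultiples_iff.mp hx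
    obtain ⟨n, hn⟩ := hgσ σ
    have h1 : σ • (k • (g : Pt W)) = k • (σ • (g : Pt W)) := map_zsmul (actHom _ σ) k _
    rw [h1, hn]
    exact AddSubgroup.zsmul_mem _ (AddSubgroup.nsmul_mem _ (AddSubgroup.mem_zmultiples _) n) k

/-- **Serre 1968**: `E` an elliptic curve over `ℚ` with a prime `q` of multiplicative reduction,
`W` a minimal equation of `E` over `ℤ`.  For almost all primes `p` the representation on the points
of order `p` is irreducible and the Galois group acts through all automorphisms (`GL₂(𝔽_p)`). -/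
theorem exists_bound_surjective {E : WeierstrassCurve ℚ} (hE : E.Δ ≠ 0) [hq : Fact q.Prime]
    (hmult : ((E.map (algebraMap ℚ ℚ_[q])).minimal ℤ_[q]).HasMultiplicativeReduction ℤ_[q])
    (hW : IsDiscMinimal W E) :
    ∃ B : ℕ, ∀ p : ℕ, p.Prime → B < p → W.ModRepIsIrreducible p ∧
      ∀ g : Submodule.torsionBy ℤ ((W.map (Int.castRingHom ℚ))⁄(AlgebraicClosure ℚ)).Point (p : ℕ)
        ≃ₗ[ZMod p] Submodule.torsionBy ℤ
          ((W.map (Int.castRingHom ℚ))⁄(AlgebraicClosure ℚ)).Point (p : ℕ),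
        ∃ σ : AlgebraicClosure ℚ ≃ₐ[ℚ] AlgebraicClosure ℚ, ∀ x : Submodule.torsionBy ℤ
          ((W.map (Int.castRingHom ℚ))⁄(AlgebraicClosure ℚ)).Point (p : ℕ), σ • x = g x := by
  have hΔ : W.Δ ≠ 0 := Δ_ne_zero_of_model hE hW.1
  have hWm : IsMultAt W q := by
    have h1 := (NOS.hasMultiplicativeReduction_iff_dvd hE hW).mp hmult
    exact ⟨hq.out, h1.1, h1.2, hΔ⟩
  obtain ⟨C, hC⟩ := hW.1
  obtain ⟨e, he⟩ := S41vc.exists_equiv_galois hE hC
  obtain ⟨B, hB⟩ := (finite_reducible hE hmult).bddAbove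
  refine ⟨max B (max 2 (padicValInt q W.Δ)), fun p hpp hp => ?_⟩
  have hfact : Fact p.Prime := ⟨hpp⟩
  have hirr : W.ModRepIsIrreducible p := by
    by_contra hred
    obtain ⟨L, hL, hst⟩ := exists_stable_line hΔ hred
    have h1 : p ≤ B := by
      refine hB ⟨hpp, L.map e.toAddMonoidHom, ?_, ?_⟩
      · rw [← hL]
        exact (Nat.card_congr (L.equivMapOfInjective e.toAddMonoidHom e.injective).toEquiv).symm
      · rintro σ _ ⟨x, hx, rfl⟩
        exact ⟨σ • x, hst σ x hx, he σ x⟩
    omega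
  have hval : padicValInt q W.Δ ≠ 0 := by
    intro h
    rw [padicValInt, padicValNat.eq_zero_iff] at h
    rcases h with h | h | h
    · exact hq.out.ne_one h
    · exact hΔ (Int.natAbs_eq_zero.mp h)
    · exact h (Int.natCast_dvd.mp hWm.dvd)
  obtain ⟨A, hA⟩ := Fermat.Agent.Frob.exists_liesOverPrime q hq.out
  obtain ⟨σ, -, hσ⟩ := exists_inertia_order hWm hpp (by omega)
    (fun h => absurd (Nat.le_of_dvd (Nat.pos_of_ne_zero hval) h) (by omega)) hA
  exact ⟨hirr, exists_smul_eq_of_repP_surjective hΔ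
    (repP_surjective_of_orderOf hΔ hirr ⟨σ, (orderOf_repP hΔ σ).trans hσ⟩)⟩

end Fermat.Agent.Cor.Mahl
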