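import Fermat.Agent.Corollaries.Mahl.Local

/-!
# The Wronskian of the auxiliary polynomials, separable case
-/

open Polynomial Finset

namespace Fermat.Agent.Cor.Mahl

open Fermat.Agent.Cor.Thue

/-- **The Wronskian of the auxiliary polynomials is not zero.** -/
theorem wronskian_ne_zero' {f : ℤ[X]} (hsep : (f.map (Int.castRingHom ℚ)).Separable)
    {P Q : ℤ[X]} (h0 : P ≠ 0 ∨ Q ≠ 0) {n h : ℕ} (hP : P.natDegree < n)
    (hQ : Q.natDegree < n) (hn : n ≤ (f.natDegree - 1) * h)
    (hv : ∀ α : ℂ, aeval α f = 0 →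
      ∀ k < h, aeval α (hasseDeriv k P) - α * aeval α (hasseDeriv k Q) = 0) :
    wronskian P Q ≠ 0 := by
  classical
  intro hW
  have hinj : Function.Injective (Int.castRingHom ℚ) := Int.cast_injective
  set P' := P.map (Int.castRingHom ℚ) with hP'
  set Q' := Q.map (Int.castRingHom ℚ) with hQ'
  have hW' : wronskian P' Q' = 0 := by
    have h1 : wronskian P' Q' = (wronskian P Q).map (Int.castRingHom ℚ) := by
      simp only [wronskian, hP', hQ', derivative_map, Polynomial.map_sub, Polynomial.map_mul]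
    rw [h1, hW, Polynomial.map_zero]
  have h0' : P' ≠ 0 ∨ Q' ≠ 0 := by
    rcases h0 with h | h
    · exact Or.inl ((Polynomial.map_ne_zero_iff hinj).mpr h)
    · exact Or.inr ((Polynomial.map_ne_zero_iff hinj).mpr h)
  obtain ⟨G, a, b, hG, hab, hPG, hQG⟩ := exists_of_wronskian_eq_zero h0' hW'
  have key : ∀ α : ℂ, aeval α f = 0 → (a : ℂ) - α * b ≠ 0 →
      (X - C α) ^ h ∣ G.map (algebraMap ℚ ℂ) := by
    intro α hα hne
    refine pow_dvd_of_hasseDeriv _ _ _ fun k hk => ?_
    have h1 := hv α hα k hk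
    have h2 : ∀ U : ℤ[X], ∀ c : ℚ, U.map (Int.castRingHom ℚ) = G * C c →
        aeval α (hasseDeriv k U) = c * (hasseDeriv k (G.map (algebraMap ℚ ℂ))).eval α := by
      intro U c hU
      have h3 : U.map (Int.castRingHom ℂ) = C (c : ℂ) * G.map (algebraMap ℚ ℂ) := by
        have h4 := congrArg (Polynomial.map (algebraMap ℚ ℂ)) hU
        rw [Polynomial.map_map, Polynomial.map_mul, map_C, mul_comm] at h4
        rw [← eq_ratCast (algebraMap ℚ ℂ) c, ← h4]
        congr 1
      have h5 : aeval α (hasseDeriv k U) = (hasseDeriv k (U.map (Int.castRingHom ℂ))).eval α := by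
        rw [hasseDeriv_map', eval_map, aeval_def]
        rfl
      rw [h5, h3, ← smul_eq_C_mul, map_smul, eval_smul, smul_eq_mul]
    rw [h2 P a hPG, h2 Q b hQG] at h1
    have h3 : ((a : ℂ) - α * b) * (hasseDeriv k (G.map (algebraMap ℚ ℂ))).eval α = 0 := by
      linear_combination h1
    exact (mul_eq_zero.mp h3).resolve_left hne
  -- the roots
  set F : ℂ[X] := f.map (Int.castRingHom ℂ) with hF
  have hFdeg : F.natDegree = f.natDegree := natDegree_map_eq_of_injective Int.cast_injective f
  have hFsep : F.Separable := by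
    have h2 : F = (f.map (Int.castRingHom ℚ)).map (algebraMap ℚ ℂ) := by
      rw [hF, Polynomial.map_map]
      congr 1
    rw [h2]
    exact hsep.map
  set Z : Finset ℂ := F.roots.toFinset with hZ
  have hZcard : Z.card = f.natDegree := by
    rw [hZ, Multiset.toFinset_card_of_nodup (nodup_roots hFsep), ← hFdeg,
      (IsAlgClosed.splits F).natDegree_eq_card_roots]
  set Z' : Finset ℂ := Z.filter (fun α => (a : ℂ) - α * b ≠ 0) with hZ'
  have hcard : f.natDegree - 1 ≤ Z'.card := by
    have h1 : (Z.filter (fun α => ¬ ((a : ℂ) - α * b ≠ 0))).card ≤ 1 := by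
      rw [card_le_one]
      intro α hα β hβ
      rw [mem_filter, not_not] at hα hβ
      have hb : (b : ℂ) ≠ 0 := by
        intro hb0
        have e1 := hα.2
        rw [hb0, mul_zero, sub_zero] at e1
        have hb0' : b = 0 := by exact_mod_cast hb0
        have ha0' : a = 0 := by exact_mod_cast e1
        rcases hab with h | h
        · exact h ha0'
        · exact h hb0'
      have e : (α - β) * b = 0 := by linear_combination hβ.2 - hα.2
      exact sub_eq_zero.mp ((mul_eq_zero.mp e).resolve_right hb)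
    have h2 := card_filter_add_card_filter_not (s := Z) (fun α => (a : ℂ) - α * b ≠ 0)
    rw [hZcard] at h2
    have h3 : Z'.card = (Z.filter (fun α => (a : ℂ) - α * b ≠ 0)).card := rfl
    omega
  have hdvd : (∏ α ∈ Z', (X - C α) ^ h) ∣ G.map (algebraMap ℚ ℂ) := by
    refine prod_dvd_of_coprime ?_ ?_
    · intro α _ β _ hne
      exact (isCoprime_X_sub_C_of_isUnit_sub (IsUnit.mk0 _ (sub_ne_zero.mpr hne))).pow
    · intro α hα
      rw [hZ', mem_filter, hZ, Multiset.mem_toFinset, mem_roots hFsep.ne_zero, IsRoot, hF,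
        eval_map] at hα
      exact key α hα.1 hα.2
  have hGm : G.map (algebraMap ℚ ℂ) ≠ 0 :=
    (Polynomial.map_ne_zero_iff (algebraMap ℚ ℂ).injective).mpr hG
  have hdeg := natDegree_le_of_dvd hdvd hGm
  rw [natDegree_prod_of_monic _ _ (fun α _ => (monic_X_sub_C α).pow h),
    natDegree_map_eq_of_injective (algebraMap ℚ ℂ).injective] at hdeg
  simp only [natDegree_pow, natDegree_X_sub_C, mul_one, sum_const, smul_eq_mul] at hdeg
  -- degree of `G` is `< n`
  have hGn : G.natDegree < n := by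
    rcases hab with ha | hb
    · have h1 : P'.natDegree = G.natDegree := by
        rw [hPG, natDegree_mul_C ha]
      rw [← h1, hP', natDegree_map_eq_of_injective hinj]
      exact hP
    · have h1 : Q'.natDegree = G.natDegree := by
        rw [hQG, natDegree_mul_C hb]
      rw [← h1, hQ', natDegree_map_eq_of_injective hinj]
      exact hQ
  have h5 : (f.natDegree - 1) * h ≤ Z'.card * h := Nat.mul_le_mul_right _ hcard
  omega

theorem trailingCoeff_pow' (p : ℤ[X]) (k : ℕ) :
    (p ^ k).trailingCoeff = p.trailingCoeff ^ k := by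
  induction k with
  | zero =>
    rw [pow_zero, pow_zero, trailingCoeff, natTrailingDegree_one, coeff_one_zero]
  | succ k ih => rw [pow_succ, trailingCoeff_mul, ih, pow_succ]

/-- The primitive linear polynomial of a rational number. -/
theorem isPrimitive_lin' {x y : ℤ} (h : IsCoprime x y) : (C y * X - C x : ℤ[X]).IsPrimitive := by
  rw [isPrimitive_iff_isUnit_of_C_dvd]
  intro r hr
  rw [C_dvd_iff_dvd_coeff] at hr
  have h1 : r ∣ y := by
    have := hr 1
    rwa [coeff_sub, coeff_C_mul, coeff_X_one, mul_one, coeff_C_succ, sub_zero] at this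
  have h0 : r ∣ x := by
    have := hr 0
    rwa [coeff_sub, coeff_C_mul, coeff_X_zero, mul_zero, coeff_C_zero, zero_sub, dvd_neg] at this
  exact h.isUnit_of_dvd' h0 h1

/-- **The non-vanishing lemma.** -/
theorem exists_ne_zero' {P Q : ℤ[X]} (hW : wronskian P Q ≠ 0) {x y : ℤ} (hxy : IsCoprime x y)
    (hy : y ≠ 0) (t : ℚ) (T : ℕ) {L : ℝ} (hL : L = max |(x : ℝ)| |(y : ℝ)|)
    (hT : ∀ i, |((wronskian P Q).coeff i : ℝ)| < L ^ T) :
    ∃ k ≤ T, aeval ((x : ℚ) / y) (hasseDeriv k P)
      - t * aeval ((x : ℚ) / y) (hasseDeriv k Q) ≠ 0 := by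
  by_contra hcon
  push Not at hcon
  set r : ℚ := (x : ℚ) / y with hr
  set P' := P.map (Int.castRingHom ℚ) with hP'
  set Q' := Q.map (Int.castRingHom ℚ) with hQ'
  set V := P' - C t * Q' with hV
  have hae : ∀ (U : ℤ[X]) (k : ℕ), aeval r (hasseDeriv k U)
      = (hasseDeriv k (U.map (Int.castRingHom ℚ))).eval r := by
    intro U k
    rw [hasseDeriv_map', eval_map, aeval_def]
    rfl
  have h1 : (X - C r) ^ (T + 1) ∣ V := by
    refine pow_dvd_of_hasseDeriv _ _ _ fun k hk => ?_
    have h2 := hcon k (by omega)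
    rw [hae, hae] at h2
    rw [hV, map_sub, eval_sub, ← smul_eq_C_mul, map_smul, eval_smul, smul_eq_mul]
    exact h2
  have h2 : (X - C r) ^ T ∣ V := (pow_dvd_pow _ (Nat.le_succ T)).trans h1
  have h3 : (X - C r) ^ T ∣ derivative V := by
    obtain ⟨U, hU⟩ := h1
    rw [hU, derivative_mul, derivative_pow]
    refine dvd_add (Dvd.dvd.mul_right ?_ _) (Dvd.dvd.mul_right (pow_dvd_pow _ (Nat.le_succ T)) _)
    simp only [Nat.add_sub_cancel]
    exact Dvd.dvd.mul_right (Dvd.dvd.mul_left dvd_rfl _) _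
  have h4 : (wronskian P Q).map (Int.castRingHom ℚ) = V * derivative Q' - derivative V * Q' := by
    simp only [wronskian, hV, hP', hQ', derivative_map, Polynomial.map_sub, Polynomial.map_mul,
      derivative_sub, derivative_mul, derivative_C]
    ring
  have h5 : (X - C r) ^ T ∣ (wronskian P Q).map (Int.castRingHom ℚ) := by
    rw [h4]
    exact dvd_sub (Dvd.dvd.mul_right h2 _) (Dvd.dvd.mul_right h3 _)
  set ℓ : ℤ[X] := C y * X - C x with hℓ
  have hy' : (y : ℚ) ≠ 0 := by exact_mod_cast hy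
  have hℓm : ℓ.map (Int.castRingHom ℚ) = C (y : ℚ) * (X - C r) := by
    rw [hℓ, Polynomial.map_sub, Polynomial.map_mul, map_C, map_X, map_C, mul_sub, ← C_mul]
    congr 2
    simp only [eq_intCast]
    rw [hr]
    field_simp
  have h6 : ℓ ^ T ∣ wronskian P Q := by
    rw [IsPrimitive.Int.dvd_iff_map_cast_dvd_map_cast _ _
        (isPrimitive_pow' (isPrimitive_lin' hxy) T),
      Polynomial.map_pow, hℓm, mul_pow, ← C_pow]
    rw [(isUnit_C.mpr (IsUnit.mk0 _ (pow_ne_zero T hy'))).mul_left_dvd]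
    exact h5
  -- leading coefficients
  have h7 : |(y : ℝ)| ^ T < L ^ T := by
    have h8 : (ℓ ^ T).leadingCoeff ∣ (wronskian P Q).leadingCoeff :=
      leadingCoeff_dvd_leadingCoeff h6
    have h9 : ℓ.leadingCoeff = y := by
      rw [hℓ, sub_eq_add_neg, ← C_neg, leadingCoeff_linear hy]
    rw [leadingCoeff_pow, h9] at h8
    have h10 := Int.le_of_dvd (abs_pos.mpr (leadingCoeff_ne_zero.mpr hW))
      ((abs_dvd_abs _ _).mpr h8)
    rw [abs_pow] at h10
    have h11 : |(y : ℝ)| ^ T ≤ |((wronskian P Q).leadingCoeff : ℝ)| := by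
      exact_mod_cast h10
    exact h11.trans_lt (hT _)
  -- trailing coefficients
  have h7' : x ≠ 0 → |(x : ℝ)| ^ T < L ^ T := by
    intro hx
    obtain ⟨U, hU⟩ := h6
    have h8 : (wronskian P Q).trailingCoeff = (ℓ.trailingCoeff) ^ T * U.trailingCoeff := by
      rw [hU, trailingCoeff_mul, trailingCoeff_pow']
    have hc0 : ℓ.coeff 0 = -x := by
      rw [hℓ, coeff_sub, coeff_C_mul, coeff_X_zero, mul_zero, coeff_C_zero, zero_sub]
    have h9 : ℓ.trailingCoeff = -x := by
      have h10 : ℓ.natTrailingDegree = 0 := by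
        rw [natTrailingDegree_eq_zero]
        right
        rw [hc0]
        exact neg_ne_zero.mpr hx
      rw [trailingCoeff, h10, hc0]
    have h10 : (wronskian P Q).trailingCoeff ≠ 0 := trailingCoeff_nonzero_iff_nonzero.mpr hW
    have h11 := Int.le_of_dvd (abs_pos.mpr h10) ((abs_dvd_abs _ _).mpr ⟨_, h8⟩)
    rw [h9, abs_pow, abs_neg] at h11
    have h12 : |(x : ℝ)| ^ T ≤ |((wronskian P Q).trailingCoeff : ℝ)| := by
      exact_mod_cast h11
    exact h12.trans_lt (hT _)
  rcases max_choice |(x : ℝ)| |(y : ℝ)| with h | h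
  · by_cases hx : x = 0
    · rw [hx, Int.cast_zero, abs_zero] at h hL
      have h8 : |(y : ℝ)| ≤ 0 := by rw [← h]; exact le_max_right _ _
      have h9 : |(y : ℝ)| = 0 := le_antisymm h8 (abs_nonneg _)
      rw [abs_eq_zero] at h9
      exact hy (by exact_mod_cast h9)
    · have := h7' hx
      rw [hL, h] at this
      exact lt_irrefl _ this
  · rw [hL, h] at h7
    exact lt_irrefl _ h7

end Fermat.Agent.Cor.Mahl
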